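import Fermat.Agent.RelPic.Cut.Shift
import Fermat.Agent.RelPic.Props.Main
import Fermat.Agent.RelPic.Complex.Cohomology
import Fermat.Prelude.Def_AlgebraicGeometry_RelPicardAlgEquivZeroCut
import Mathlib.AlgebraicGeometry.Morphisms.UniversallyOpen

/-!
# Powers of the curve mapping onto the representing scheme
-/

set_option autoImplicit false
set_option linter.style.haveILetI false
set_option linter.unusedSectionVars false

noncomputable section

universe u

open CategoryTheory CategoryTheory.Limits AlgebraicGeometry AlgebraicGeometry.RelPicard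
  NeronModelInfra GoodReductionJacobian

namespace Fermat.Agent.RelPic

variable {k : Type u} [Field k]

/-- Geometrically integral morphisms over a field compose. -/
theorem geometricallyIntegral_comp {X Y : Scheme.{u}} (f : X ⟶ Y)
    (g : Y ⟶ Spec (CommRingCat.of k)) [GeometricallyIntegral f] [Flat f] [UniversallyOpen f]
    [GeometricallyIntegral g] [LocallyOfFiniteType g] : GeometricallyIntegral (f ≫ g) := by
  haveI : ObjectProperty.IsClosedUnderIsomorphisms (fun Z : Scheme.{u} => IsIntegral Z) :=
    ⟨fun e _ => IsIntegral.of_isIso e.hom⟩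
  refine ⟨geometrically_iff_of_isClosedUnderIsomorphisms.mpr fun K _ x => ?_⟩
  haveI : IsIntegral (pullback g x) :=
    GeometricallyIntegral.geometrically_isIntegral _ _ _ (.of_hasPullback g x)
  haveI : IsLocallyNoetherian (pullback g x) :=
    LocallyOfFiniteType.isLocallyNoetherian (pullback.snd g x)
  haveI : IsIntegral (pullback f (pullback.fst g x)) := inferInstance
  exact IsIntegral.of_isIso (pullbackRightPullbackFstIso g x f).hom

variable {C : Scheme.{u}} {c : C ⟶ Spec (CommRingCat.of k)}
  {ε : SchemeHomOver (𝟙 (Spec (CommRingCat.of k))) c}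

/-- A power of the curve is geometrically integral and of finite type. -/
theorem geometricallyIntegral_selfProd [GeometricallyIntegral c] [Smooth c] :
    ∀ n, GeometricallyIntegral (selfProd c n).2 ∧ LocallyOfFiniteType (selfProd c n).2
  | 0 => ⟨geometricallyIntegral_id_Spec k, inferInstanceAs (LocallyOfFiniteType (𝟙 _))⟩
  | n + 1 => by
    obtain ⟨h1, h2⟩ := geometricallyIntegral_selfProd n
    haveI := h1
    haveI := h2
    exact ⟨geometricallyIntegral_comp (pullback.fst (selfProd c n).2 c) (selfProd c n).2,
      inferInstanceAs (LocallyOfFiniteType (pullback.fst (selfProd c n).2 c ≫ (selfProd c n).2))⟩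

variable {G : GeomModel c ε} {P : SubPicCondition c ε} {D : RelativePic0Designation k c}
  {h : RepresentsRelSubPic c ε P D} (hD : DictProps G) (hP : IsDegreeCut G P) (S : ShiftData G)

/-- Over a field every triple is rigid. -/
theorem Triple.isRigid_field {M : Model k} {K : Type u} [Field K] [Algebra k K] (T : Triple M K)
    (e : M.Pt) : T.IsRigid e := by
  obtain ⟨ψ, v, hv⟩ := T.exists_functional_notMem e (⊥ : Ideal K)
  exact Triple.isRigid_of_isUnit (Triple.BC.refl T) e ψ v
    (IsUnit.mk0 _ fun h0 => hv (Ideal.mem_bot.mpr h0))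

/-- Over a field degree zero means degree zero on all fibres. -/
theorem Triple.isDegZero_field {M : Model k} {K : Type u} [Field K] [Algebra k K] {T : Triple M K}
    (hT : T.deg = 0) : T.IsDegZero := fun _ _ _ _ _ ⟨F⟩ => F.deg_eq.trans hT

omit hD hP S in
/-- The unit point of the representing scheme. -/
def zeroPt (D : RelativePic0Designation k c) :
    SchemeHomOver (𝟙 (Spec (CommRingCat.of k))) D.toBase :=
  ⟨D.zeroSection, D.zeroSection_toBase⟩

omit hD hP S in
/-- The bundle at the unit point is trivial. -/
theorem nonempty_zero_iso {T : Scheme.{u}} {t : T ⟶ Spec (CommRingCat.of k)}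
    (ψ : SchemeHomOver t (𝟙 (Spec (CommRingCat.of k)))) :
    Nonempty ((h.poincare.pullbackAlong (postComp (zeroPt D) ψ)).L ≅
      (RigidifiedLineBundle.unit (c := c) (ε := ε) t).L) := by
  obtain ⟨e₁⟩ := pullbackAlong_comp h.poincare (zeroPt D) ψ
  obtain ⟨e₂⟩ := RigidifiedLineBundle.pullbackAlong_congr ψ h.zero
  exact ⟨e₁.symm ≪≫ e₂ ≪≫ Scheme.Modules.pullbackUnitIso _⟩

omit hD hP in
/-- `X` is obtained from the trivial triple by `n` twists with points. -/
def ShiftChain {K : Type u} [Field K] [Algebra k K] : ℕ → Triple G.model K → Prop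
  | 0, X => TripleOf G K (RigidifiedLineBundle.unit (c := c) (ε := ε) (str k K)).L X
  | n + 1, X => ∃ (q : SchemeHomOver (str k K) c) (Y : Triple G.model K),
      ShiftChain n Y ∧ S.IsShift q Y X

include hD hP

/-- **The maps from the powers of the curve**. -/
theorem exists_powMap : ∀ n : ℕ, ∃ f : SchemeHomOver (selfProd c n).2 D.toBase,
    ∀ (K : Type u) [Field K] [Algebra k K] (X : Triple G.model K)
      (g : SchemeHomOver (str k K) D.toBase), ShiftChain S n X → PtTriple h G g X →
        ∃ pt : SchemeHomOver (str k K) (selfProd c n).2, g = postComp f pt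
  | 0 => by
    refine ⟨zeroPt D, fun K _ _ X g hX hg => ⟨⟨str k K, Category.comp_id _⟩, ?_⟩⟩
    exact hg.eq hD (TripleOf.of_iso (nonempty_zero_iso (h := h) _).some.symm hX)
  | n + 1 => by
    obtain ⟨f, hf⟩ := exists_powMap n
    let pr : SchemeHomOver (selfProd c (n + 1)).2 (selfProd c n).2 :=
      ⟨pullback.fst (selfProd c n).2 c, rfl⟩
    let qu : SchemeHomOver (selfProd c (n + 1)).2 c :=
      ⟨pullback.snd (selfProd c n).2 c, pullback.condition.symm⟩
    obtain ⟨f', hf'⟩ := exists_shift_morphism (h := h) hD hP S (selfProd c (n + 1)).2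
      (postComp f pr) qu
    refine ⟨f', fun K _ _ X g hX hg => ?_⟩
    obtain ⟨q, Y, hY, hs⟩ := hX
    have hdegX : X.deg = 0 :=
      (hg.isDegZero hD hP) K (AlgHom.id k K) X ⟨Triple.BC.refl X⟩
    obtain ⟨gY, hgY⟩ := exists_point (h := h) hD hP (Y.isRigid_field G.e)
      (Triple.isDegZero_field ((S.deg_eq q Y X hs).symm.trans hdegX))
    obtain ⟨pt, hpt⟩ := hf K Y gY hY hgY
    let pt' : SchemeHomOver (str k K) (selfProd c (n + 1)).2 :=
      ⟨pullback.lift pt.1 q.1 (pt.2.trans q.2.symm), by
        show pullback.lift _ _ _ ≫ pullback.fst _ _ ≫ (selfProd c n).2 = _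
        rw [pullback.lift_fst_assoc]
        exact pt.2⟩
    have hpr : postComp (postComp f pr) pt' = gY := by
      rw [hpt]
      refine Subtype.ext ?_
      show pullback.lift _ _ _ ≫ pullback.fst _ _ ≫ f.1 = pt.1 ≫ f.1
      rw [pullback.lift_fst_assoc]
    have hqu : postComp qu pt' = q := Subtype.ext (pullback.lift_snd _ _ _)
    obtain ⟨X', hX', -⟩ := exists_ptTriple (h := h) hD (postComp f' pt')
    have hs' := hf' K pt' Y X' (by rw [hpr]; exact hgY) hX'
    rw [hqu] at hs'
    have hBC : Nonempty (Triple.BC (AlgHom.id k K) X' X) := by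
      refine (S.bc (AlgHom.id k K) q Y X' Y X hs' ⟨Triple.BC.refl Y⟩).mp ?_
      rwa [show postComp q (specOver (AlgHom.id k K)) = q by
        rw [specOver_id]; exact Subtype.ext (Category.id_comp _)]
    exact ⟨pt', (hX'.ext hD hg (Triple.BC.nonempty_iff_equiv.mp hBC)).symm⟩

/-- Every triple of degree zero over an algebraically closed field is a chain of `n` twists. -/
def HasChains (n : ℕ) : Prop :=
  ∀ (K : Type u) [Field K] [Algebra k K] [IsAlgClosed K] (X : Triple G.model K),
    X.deg = 0 → ShiftChain S n X

omit hP in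
include h in
/-- A map from a power of the curve through which all geometric points factor is surjective. -/
theorem exists_powMap_surjective (hP : IsDegreeCut G P) {n : ℕ} (hn : HasChains S n) :
    ∃ f : SchemeHomOver (selfProd c n).2 D.toBase, Surjective f.1 ∧
      ∀ (K : Type u) [Field K] [Algebra k K] [IsAlgClosed K]
        (g : SchemeHomOver (str k K) D.toBase),
          ∃ pt : SchemeHomOver (str k K) (selfProd c n).2, g = postComp f pt := by
  obtain ⟨f, hf⟩ := exists_powMap (h := h) hD hP S n
  have key : ∀ (K : Type u) [Field K] [Algebra k K] [IsAlgClosed K]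
      (g : SchemeHomOver (str k K) D.toBase),
      ∃ pt : SchemeHomOver (str k K) (selfProd c n).2, g = postComp f pt := fun K _ _ _ g => by
    obtain ⟨X, hX, -⟩ := exists_ptTriple (h := h) hD g
    exact hf K X g (hn K X ((hX.isDegZero hD hP) K (AlgHom.id k K) X ⟨Triple.BC.refl X⟩)) hX
  refine ⟨f, ⟨fun x => ?_⟩, key⟩
  let x₀ : Spec (CommRingCat.of (AlgebraicClosure (D.P.residueField x))) ⟶ D.P :=
    Spec.map (CommRingCat.ofHom (algebraMap (D.P.residueField x) _)) ≫ D.P.fromSpecResidueField x
  letI := algOf (R := AlgebraicClosure (D.P.residueField x)) (x₀ ≫ D.toBase)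
  obtain ⟨pt, hpt⟩ := key _ ⟨x₀, (str_algOf (R := AlgebraicClosure (D.P.residueField x)) _).symm⟩
  refine ⟨pt.1 (IsLocalRing.closedPoint _), ?_⟩
  have h1 := congrArg (fun v => v (IsLocalRing.closedPoint (AlgebraicClosure (D.P.residueField x))))
    (congrArg Subtype.val hpt)
  refine h1.symm.trans ?_
  exact D.P.fromSpecResidueField_apply x _

end Fermat.Agent.RelPic

end
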