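import Fermat.Agent.RelPic.Cut.Fibre
import Fermat.Agent.RelPic.Cut.Power

/-!
# Algebraic equivalence to zero is degree zero
-/

set_option autoImplicit false
set_option linter.style.haveILetI false
set_option linter.unusedSectionVars false

noncomputable section

universe u

open CategoryTheory CategoryTheory.Limits AlgebraicGeometry AlgebraicGeometry.RelPicard
  NeronModelInfra GoodReductionJacobian

namespace Fermat.Agent.RelPic

variable {k : Type u} [Field k] {C : Scheme.{u}} {c : C ⟶ Spec (CommRingCat.of k)}
  {ε : SchemeHomOver (𝟙 (Spec (CommRingCat.of k))) c} {G : GeomModel c ε}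
  {P : SubPicCondition c ε} {D : RelativePic0Designation k c}
  {h : RepresentsRelSubPic c ε P D}

/-- A bundle of degree zero on a geometric fibre is algebraically equivalent to zero. -/
theorem isAlgEquivZero_of_powMap {n : ℕ} [GeometricallyIntegral c] [Smooth c]
    (f : SchemeHomOver (selfProd c n).2 D.toBase)
    {K : Type u} [Field K] [Algebra k K] [IsAlgClosed K]
    (hf : ∀ g : SchemeHomOver (str k K) D.toBase,
      ∃ pt : SchemeHomOver (str k K) (selfProd c n).2, g = postComp f pt)
    (g : SchemeHomOver (str k K) D.toBase) (L : (pullback c (str k K)).Modules)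
    (hL : Nonempty ((h.poincare.pullbackAlong g).L ≅ L)) :
    IsAlgEquivZero (pullback.snd c (str k K)) L := by
  obtain ⟨hgi, hft⟩ := geometricallyIntegral_selfProd (c := c) n
  haveI := hgi
  haveI := hft
  obtain ⟨p₀, hp₀⟩ := hf (postComp (zeroPt D) ⟨str k K, Category.comp_id _⟩)
  obtain ⟨p₁, hp₁⟩ := hf g
  let T' := pullback (selfProd c n).2 (str k K)
  let hT : T' ⟶ Spec (CommRingCat.of K) := pullback.snd _ _
  let π : pullback (pullback.snd c (str k K)) hT ⟶ pullback c D.toBase :=
    pullback.lift (pullback.fst _ _ ≫ pullback.fst c (str k K))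
      (pullback.snd _ _ ≫ pullback.fst (selfProd c n).2 (str k K) ≫ f.1) (by
        simp only [Category.assoc, f.2, pullback.condition, hT]
        rw [pullback.condition_assoc])
  let tp : SchemeHomOver (str k K) (selfProd c n).2 →
      SchemeHomOver (𝟙 (Spec (CommRingCat.of K))) hT := fun pt =>
    ⟨pullback.lift pt.1 (𝟙 _) (pt.2.trans (Category.id_comp _).symm), pullback.lift_snd _ _ _⟩
  have key : ∀ pt, baseChangeSnd (pullback.snd c (str k K)) (tp pt) ≫ π =
      pullback.fst (pullback.snd c (str k K)) (𝟙 _) ≫ baseChangeSnd c (postComp f pt) := fun pt => by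
    apply pullback.hom_ext
    · simp only [π, baseChangeSnd, Category.assoc, pullback.lift_fst, pullback.lift_fst_assoc,
        Category.comp_id]
    · simp only [π, tp, baseChangeSnd, postComp, Category.assoc, pullback.lift_snd,
        pullback.lift_snd_assoc, pullback.lift_fst_assoc]
      rw [pullback.condition_assoc, Category.id_comp]
  let iso := fun pt =>
    (Scheme.Modules.pullbackComp _ _).app h.poincare.L ≪≫
      (Scheme.Modules.pullbackCongr (key pt)).app h.poincare.L ≪≫
      ((Scheme.Modules.pullbackComp _ _).app h.poincare.L).symm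
  obtain ⟨z⟩ := nonempty_zero_iso (h := h) (⟨str k K, Category.comp_id _⟩ :
    SchemeHomOver (str k K) (𝟙 (Spec (CommRingCat.of k))))
  refine ⟨T', hT, inferInstance, inferInstance, (Scheme.Modules.pullback π).obj h.poincare.L,
    h.poincare.isInvertible.pullback π, tp p₀, tp p₁, ⟨?_⟩, ⟨?_⟩⟩
  · exact iso p₀ ≪≫ (Scheme.Modules.pullback _).mapIso
      ((Scheme.Modules.pullbackCongr (congrArg (baseChangeSnd c) hp₀).symm).app h.poincare.L ≪≫ z) ≪≫
      Scheme.Modules.pullbackUnitIso _
  · exact iso p₁ ≪≫ (Scheme.Modules.pullback _).mapIso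
      ((Scheme.Modules.pullbackCongr (congrArg (baseChangeSnd c) hp₁).symm).app h.poincare.L ≪≫
        hL.some)

variable (hD : DictProps G) (hP : IsDegreeCut G P) (S : ShiftData G)

include hD hP S h in
/-- **Algebraic equivalence to zero on the fibres is degree zero on the fibres**. -/
theorem isDegreeCut_algEquivZeroCut [GeometricallyIntegral c] [Smooth c]
    (hu : ∀ (K : Type u) [Field K] [Algebra k K] (X : Triple G.model K),
      TripleOf G K (RigidifiedLineBundle.unit (c := c) (ε := ε) (str k K)).L X → X.deg = 0)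
    {n : ℕ} (hn : HasChains S n) : IsDegreeCut G (algEquivZeroCut c ε) := by
  intro T t M
  show FibrewiseAlgEquivZero M ↔ FibDegZero G M
  rw [fibrewiseAlgEquivZero_iff]
  obtain ⟨f, -, hf⟩ := exists_powMap_surjective (h := h) hD S hP hn
  constructor
  · intro hM K _ _ g X hX
    let φ : K →ₐ[k] AlgebraicClosure K := IsScalarTower.toAlgHom k K (AlgebraicClosure K)
    obtain ⟨X', hX', -⟩ := hD.exists_tripleOf _ (M.pullbackAlong (postComp g (specOver φ)))
    obtain ⟨F⟩ := bc_of_tripleOf hD φ hX hX'
    rw [← F.deg_eq]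
    exact deg_eq_zero_of_isAlgEquivZero hD hu (hM _ (postComp g (specOver φ))) hX'
  · intro hM K _ _ _ g
    obtain ⟨X, hX, hr⟩ := hD.exists_tripleOf K (M.pullbackAlong g)
    obtain ⟨g', hg'⟩ := exists_point (h := h) hD hP hr (Triple.isDegZero_field (hM K g X hX))
    refine isAlgEquivZero_of_powMap (h := h) f (hf K) g' _ ?_
    exact (hD.iso_iff K _ _ X X (h.poincare.pullbackAlong g').isInvertible
      (M.pullbackAlong g).isInvertible hg' hX).mpr ⟨Triple.Equiv.refl X⟩

include hD hP S h in
/-- A power of the curve surjects onto the representing scheme. -/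
theorem exists_surjective_selfProd {n : ℕ} (hn : HasChains S n) :
    ∃ f : (selfProd c n).1 ⟶ D.P, Surjective f ∧ f ≫ D.toBase = (selfProd c n).2 := by
  obtain ⟨f, hs, -⟩ := exists_powMap_surjective (h := h) hD S hP hn
  exact ⟨f.1, hs, f.2⟩

end Fermat.Agent.RelPic

end
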