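import Fermat.Agent.RelPic.Cut.SectionZero
import Fermat.Agent.RelPic.Functor.UnitDeg

/-!
# A triple with a section is the unit triple plus points
-/

set_option autoImplicit false
set_option synthInstance.maxHeartbeats 400000
set_option maxHeartbeats 1600000

noncomputable section

universe u

open scoped TensorProduct Pointwise

namespace Fermat.Agent.RelPic

variable {k : Type u} [Field k] {C : Model k}

section Unit

variable {R R' : Type u} [CommRing R] [Algebra k R] [CommRing R'] [Algebra k R']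

/-- The base change of the unit triple. -/
def Model.unitBC (φ : R →ₐ[k] R') : Triple.BC φ (C.unitTriple R) (C.unitTriple R') where
  toFun := (C.mapA φ).toRingHom.toAddMonoidHom
  map_smul a v := map_mul (C.mapA φ) a v
  map_p _ hv := C.mapA_mem_Cp φ hv
  map_m _ hv := C.mapA_mem_Cm φ hv
  span_p _ hv := C.mem_span_image_Cp φ hv
  span_m _ hv := C.mem_span_image_Cm φ hv

theorem Model.unitTriple_deg_field (K : Type u) [Field K] [Algebra k K] :
    (C.unitTriple K).deg = 0 :=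
  (C.unitBC (Algebra.ofId k K)).deg_eq.trans C.unitTriple_deg

/-- A triple generated by one section is the unit triple. -/
theorem Triple.nonempty_equiv_unit (Y : Triple C R) {s : Y.M}
    (hp : Submodule.span (C.Cp R) {s} = Y.p) (hm : Submodule.span (C.Cm R) {s} = Y.m) :
    Nonempty ((C.unitTriple R).Equiv Y) := by
  have := Y.invertible
  have hsurj : Function.Surjective (LinearMap.toSpanSingleton (C.A R) Y.M s) := fun v => by
    obtain ⟨n, hn⟩ := Y.exists_pow_smul_mem_p v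
    rw [← hp] at hn
    obtain ⟨b, hb⟩ := Submodule.mem_span_singleton.mp hn
    refine ⟨C.Y₀ R ^ n * (b : C.A R), ?_⟩
    show (C.Y₀ R ^ n * (b : C.A R)) • s = v
    rw [mul_smul, show (b : C.A R) • s = C.X₀ R ^ n • v from hb, Y.Y_pow_smul_X_pow_smul]
  have hbij := Module.Invertible.bijective_of_surjective hsurj
  refine ⟨⟨LinearEquiv.ofBijective _ hbij, fun (a : C.A R) => ?_, fun (a : C.A R) => ?_⟩⟩
  · show a ∈ C.Cp R ↔ a • s ∈ Y.p
    rw [← hp, Submodule.mem_span_singleton]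
    exact ⟨fun ha => ⟨⟨a, ha⟩, rfl⟩, fun ⟨b, hb⟩ => hbij.1 (show (b : C.A R) • s = a • s from hb) ▸ b.2⟩
  · show a ∈ C.Cm R ↔ a • s ∈ Y.m
    rw [← hm, Submodule.mem_span_singleton]
    exact ⟨fun ha => ⟨⟨a, ha⟩, rfl⟩, fun ⟨b, hb⟩ => hbij.1 (show (b : C.A R) • s = a • s from hb) ▸ b.2⟩

end Unit

variable {K : Type u} [Field K] [Algebra k K] (hC : C.Regular)
include hC

/-- `Y` is the unit triple plus `n` points. -/
def AddPts : ℕ → Triple C K → Prop
  | 0, Y => Nonempty ((C.unitTriple K).Equiv Y)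
  | n + 1, Y => ∃ Z, AddPts n Z ∧
      ((∃ q, Nonempty ((Div.act _ (Div.isGood_ptInv hC q) Z).Equiv Y)) ∨
        ∃ q, Nonempty ((Div.act _ (Div.isGood_ptInvM hC q) Z).Equiv Y))

variable [IsAlgClosed K]

attribute [local instance] Model.commRingCp

omit hC in
/-- The size of the zeros of a section in the first chart. -/
abbrev lenP (Y : Triple C K) (s : Y.M) : ℕ :=
  Module.finrank K (Y.pR ⧸ (Triple.spanP Y s).comap Y.pR.subtype)

/-- Removing a zero of a section in the first chart. -/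
theorem zero_step (Y : Triple C K) {s : Y.M} (hp : s ∈ Y.p) (hm : s ∈ Y.m) (hs : s ≠ 0)
    (hne : Submodule.span (C.Cp K) {s} ≠ Y.p) :
    ∃ (q : C.Ap →ₐ[k] K) (s' : (Div.act _ (Div.isGood_ptDiv hC q) Y).M),
      s' ∈ (Div.act _ (Div.isGood_ptDiv hC q) Y).p ∧
      s' ∈ (Div.act _ (Div.isGood_ptDiv hC q) Y).m ∧ s' ≠ 0 ∧
      lenP (Div.act _ (Div.isGood_ptDiv hC q) Y) s' < lenP Y s ∧
      lenP (Div.act _ (Div.isGood_ptDiv hC q) Y).swap s' ≤ lenP Y.swap s := by
  obtain ⟨q, hq⟩ := Y.exists_zero_of_ne hC hp hne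
  have hN : s ∈ Div.actN (Div.ptDiv q) Y := (Div.isGood_ptDiv hC q).smul_p_le Y s hq
  refine ⟨q, ⟨s, hN⟩, hq, Div.smul_m_ptDiv_of_mem q Y hN hm,
    fun h => hs (congrArg Subtype.val h), ?_, ?_⟩
  · have := Y.finite_quotient_spanP hC hp hs
    refine (quotient_comap_mono (Div.actIncl Y _ (Div.isGood_ptDiv hC q))
      (fun a b h => Subtype.ext h) ?_ ?_ ?_).2.2 fun hle => ?_
    · rintro _ ⟨v, hv, rfl⟩
      exact Div.smul_p_ptDiv_le q Y _ hv
    · refine le_antisymm ?_ fun v hv => ?_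
      · rintro _ ⟨v, hv, rfl⟩
        obtain ⟨b, rfl⟩ := Submodule.mem_span_singleton.mp hv
        exact Submodule.mem_span_singleton.mpr ⟨b, rfl⟩
      · obtain ⟨b, rfl⟩ := Submodule.mem_span_singleton.mp hv
        exact ⟨b • ⟨s, hN⟩, Submodule.mem_span_singleton.mpr ⟨b, rfl⟩, rfl⟩
    · exact fun v hv => (Submodule.span_singleton_le_iff_mem (⟨s, hN⟩ : Div.actN (Div.ptDiv q) Y)
        (Div.act _ (Div.isGood_ptDiv hC q) Y).p).mpr hq hv
    · have h1 := (Div.finrank_quotient_ptDiv q Y).2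
      rw [Submodule.comap_subtype_eq_top.mpr fun v hv => by
        obtain ⟨w, hw, rfl⟩ := hle hv
        exact hw, Module.finrank_zero_of_subsingleton] at h1
      exact zero_ne_one h1
  · have := Y.swap.finite_quotient_spanP hC.swap hm hs
    refine (quotient_comap_mono (Div.actIncl Y _ (Div.isGood_ptDiv hC q))
      (fun a b h => Subtype.ext h) ?_ ?_ ?_).2.1
    · rintro _ ⟨v, hv, rfl⟩
      exact Div.smul_m_ptDiv_le q Y _ hv
    · refine le_antisymm ?_ fun v hv => ?_
      · rintro _ ⟨v, hv, rfl⟩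
        obtain ⟨b, rfl⟩ := Submodule.mem_span_singleton.mp hv
        exact Submodule.mem_span_singleton.mpr ⟨b, rfl⟩
      · obtain ⟨b, rfl⟩ := Submodule.mem_span_singleton.mp hv
        exact ⟨b • ⟨s, hN⟩, Submodule.mem_span_singleton.mpr ⟨b, rfl⟩, rfl⟩
    · exact fun v hv => (Submodule.span_singleton_le_iff_mem (⟨s, hN⟩ : Div.actN (Div.ptDiv q) Y)
        (Div.act _ (Div.isGood_ptDiv hC q) Y).m).mpr (Div.smul_m_ptDiv_of_mem q Y hN hm) hv

/-- **A triple with a section is the unit triple plus as many points as its degree**. -/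
theorem exists_addPts (N : ℕ) : ∀ (Y : Triple C K) (s : Y.M), s ∈ Y.p → s ∈ Y.m → s ≠ 0 →
    lenP Y s + lenP Y.swap s = N → ∃ n : ℕ, (n : ℤ) = Y.deg ∧ AddPts hC n Y := by
  induction N using Nat.strong_induction_on with
  | _ N ih =>
  intro Y s hp hm hs hN
  by_cases h₁ : Submodule.span (C.Cp K) {s} = Y.p
  · by_cases h₂ : Submodule.span (C.Cm K) {s} = Y.m
    · obtain ⟨E⟩ := Y.nonempty_equiv_unit h₁ h₂
      exact ⟨0, by rw [← E.deg_eq, C.unitTriple_deg_field K]; rfl, ⟨E⟩⟩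
    · obtain ⟨q, s', hp', hm', hs', hlt, hle⟩ := zero_step hC.swap Y.swap hm hp hs h₂
      obtain ⟨n, hn, hch⟩ := ih _ (by
        show lenP (Div.act _ (Div.isGood_ptDivM hC q) Y) s' +
          lenP (Div.act _ (Div.isGood_ptDivM hC q) Y).swap s' < N
        rw [← hN, add_comm (lenP Y s)]
        refine lt_of_eq_of_lt (add_comm _ _) ?_
        exact add_lt_add_of_lt_of_le hlt hle) (Div.act _ (Div.isGood_ptDivM hC q) Y) s' hm' hp' hs'
        rfl
      obtain ⟨E⟩ := Div.nonempty_equiv_act_inverse (Div.isGood_ptDivM hC q) (Div.isGood_ptInvM hC q)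
        (g := C.swap.X₀ K - algebraMap K (C.A K) (Model.ptX (C := C.swap) q))
        (C.swap.isRegular_X₀_sub K _)
        (congrArg DivData.flip ((mul_comm _ _).trans (Div.ptDiv_mul_ptInv hC.swap q))) Y
      refine ⟨n + 1, ?_, _, hch, Or.inr ⟨q, ⟨E.symm⟩⟩⟩
      have h := (Div.deg_act_flip Y (Div.isGood_ptDiv hC.swap q) (Div.isGood_ptDivM hC q)).trans
        (Div.deg_act_ptDiv q Y.swap hC.swap)
      rw [Div.deg_swap] at h
      have hn' : (n : ℤ) = Y.deg - 1 := hn.trans h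
      push_cast
      omega
  · obtain ⟨q, s', hp', hm', hs', hlt, hle⟩ := zero_step hC Y hp hm hs h₁
    obtain ⟨n, hn, hch⟩ := ih _ (by rw [← hN]; exact add_lt_add_of_lt_of_le hlt hle)
      (Div.act _ (Div.isGood_ptDiv hC q) Y) s' hp' hm' hs' rfl
    obtain ⟨E⟩ := Div.nonempty_equiv_act_inverse (Div.isGood_ptDiv hC q) (Div.isGood_ptInv hC q)
      (C.isRegular_X₀_sub K _) ((mul_comm _ _).trans (Div.ptDiv_mul_ptInv hC q)) Y
    refine ⟨n + 1, ?_, _, hch, Or.inl ⟨q, ⟨E.symm⟩⟩⟩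
    rw [Div.deg_act_ptDiv q Y hC] at hn
    push_cast
    omega

/-- **A triple of nonnegative Euler characteristic is the unit triple plus points**. -/
theorem exists_addPts_of_deg (Y : Triple C K) (h : 0 < Y.deg + C.chi₀) :
    ∃ n : ℕ, (n : ℤ) = Y.deg ∧ AddPts hC n Y := by
  have := Y.finite_H0
  obtain ⟨s, hs, hs0⟩ := (Submodule.ne_bot_iff (Y.pR ⊓ Y.mR)).mp fun hbot => by
    simp only [Triple.deg, chiOf, sub_add_cancel] at h
    rw [hbot, finrank_bot] at h
    push_cast at h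
    omega
  exact exists_addPts hC _ Y s hs.1 hs.2 hs0 rfl

end Fermat.Agent.RelPic

end
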