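import Fermat.Agent.RelPic.Cut.ShiftDiv
import Fermat.Agent.RelPic.Complex.Degree

/-!
# Twisting by a point changes the degree by one

Removing a point lowers the Euler characteristic by one, so the shift divisors keep the degree.
-/

set_option autoImplicit false

noncomputable section

universe u

open scoped TensorProduct Pointwise

namespace Fermat.Agent.RelPic

attribute [local instance 2000] Submodule.module Submodule.module' Subalgebra.moduleLeft
  IsScalarTower.left
attribute [-instance] NormedAlgebra.toAlgebra NormedSpace.toModule LieRinehartAlgebra.toIsScalarTower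
  LieAdmissibleAlgebra.toModule RightPreLieAlgebra.toModule LeftPreLieAlgebra.toModule
  LieAlgebra.toModule

theorem chiOf_swap {K V : Type u} [Field K] [AddCommGroup V] [Module K V] (p m : Submodule K V) :
    chiOf p m = chiOf m p := by
  simp only [chiOf]
  rw [inf_comm, sup_comm]

/-- Restricting both lattices to a subspace that contains the first and is spanned with the second
does not change the Euler characteristic. -/
theorem chiOf_comap {K V W : Type u} [Field K] [AddCommGroup V] [Module K V] [AddCommGroup W]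
    [Module K W] (ι : W →ₗ[K] V) (hι : Function.Injective ι) {p m : Submodule K V}
    (hp : p ≤ LinearMap.range ι) (hsup : m ⊔ LinearMap.range ι = ⊤) :
    chiOf (p.comap ι) (m.comap ι) = chiOf p m ∧
      Nonempty ((W ⧸ (p.comap ι ⊔ m.comap ι)) ≃ₗ[K] V ⧸ (p ⊔ m)) := by
  have e₀ : (p.comap ι ⊓ m.comap ι).map ι = p ⊓ m := by
    rw [← Submodule.comap_inf, Submodule.map_comap_eq]
    exact inf_eq_right.mpr (inf_le_left.trans hp)
  have E := (Submodule.equivMapOfInjective ι hι (p.comap ι ⊓ m.comap ι)).finrank_eq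
  rw [e₀] at E
  let g : W →ₗ[K] V ⧸ (p ⊔ m) := (p ⊔ m).mkQ ∘ₗ ι
  have hker : LinearMap.ker g = p.comap ι ⊔ m.comap ι := by
    refine le_antisymm (fun w hw => ?_) (sup_le ?_ ?_)
    · obtain ⟨a, ha, b, hb, hab⟩ :=
        Submodule.mem_sup.mp ((Submodule.Quotient.mk_eq_zero _).mp hw)
      obtain ⟨a', rfl⟩ := hp ha
      refine Submodule.mem_sup.mpr ⟨a', ha, w - a', ?_, add_sub_cancel _ _⟩
      show ι (w - a') ∈ m
      rw [map_sub, ← hab, add_sub_cancel_left]
      exact hb
    · exact fun w hw => (Submodule.Quotient.mk_eq_zero _).mpr (Submodule.mem_sup_left hw)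
    · exact fun w hw => (Submodule.Quotient.mk_eq_zero _).mpr (Submodule.mem_sup_right hw)
  have hsurj : Function.Surjective g := fun x => by
    obtain ⟨v, rfl⟩ := Submodule.mkQ_surjective _ x
    obtain ⟨b, hb, r, ⟨w, rfl⟩, rfl⟩ :=
      Submodule.mem_sup.mp (hsup.ge (Submodule.mem_top (x := v)))
    exact ⟨w, (Submodule.Quotient.eq _).mpr (by
      rw [sub_add_cancel_right]; exact neg_mem (Submodule.mem_sup_right hb))⟩
  let Q := (Submodule.quotEquivOfEq _ _ hker.symm).trans (g.quotKerEquivOfSurjective hsurj)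
  refine ⟨?_, ⟨Q⟩⟩
  simp only [chiOf]
  rw [E, Q.finrank_eq]

variable {k : Type u} [Field k] {C : Model k}

theorem Model.chi₀_swap : C.swap.chi₀ = C.chi₀ := chiOf_swap _ _

namespace Div

open Model

section

variable {R : Type u} [CommRing R] [Algebra k R] (q : C.Ap →ₐ[k] R)

theorem one_sub_pow_mem_ptDiv_m (n : ℕ) :
    1 - (algebraMap R (C.A R) (ptX q) * C.Y₀ R) ^ n ∈ (ptDiv q).m := by
  rw [← geom_sum_mul_neg]
  refine mul_mem_of_mem _ (Subalgebra.sum_mem _ fun i _ => Subalgebra.pow_mem _ ?_ i)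
    (one_sub_mem_ptDiv_m q)
  exact (C.Cm R).mul_mem (Subalgebra.algebraMap_mem _ _) (C.Y₀_mem_Cm R)

theorem mem_ptDiv_m_iff {a : C.A R} :
    a ∈ (ptDiv q).m ↔ a ∈ (ptDiv q).J ∧ a ∈ C.Cm R :=
  DivData.mem_ofIdeal_m (C.jp R).toRingHom

theorem pow_mem_ptDiv_m {a : C.A R} (ha : a ∈ (ptDiv q).J) :
    ∃ n : ℕ, C.Y₀ R ^ n * a ∈ (ptDiv q).m :=
  DivData.ofIdeal_pow_m (C.jp R).toRingHom (C.isChartPair R) (ptIdeal q) a ha

theorem eq_smul_add_smul (T : Triple C R) (b : C.A R) (n : ℕ) (v : T.M) :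
    v = b ^ n • C.Y₀ R ^ n • v + (1 - (b * C.Y₀ R) ^ n) • v := by
  rw [smul_smul, ← mul_pow, sub_smul, one_smul, add_sub_cancel]

theorem actN_ptDiv_sup (T : Triple C R) :
    T.mR ⊔ (actN (ptDiv q) T).restrictScalars R = ⊤ := by
  refine eq_top_iff.mpr fun v _ => ?_
  obtain ⟨n, hn⟩ := T.exists_pow_smul_mem_m v
  rw [eq_smul_add_smul T (algebraMap R (C.A R) (ptX q)) n v]
  have h₁ : algebraMap R (C.A R) (ptX q) ^ n ∈ C.Cm R :=
    Subalgebra.pow_mem _ (Subalgebra.algebraMap_mem _ _) n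
  have h₂ := ((mem_ptDiv_m_iff q).mp (one_sub_pow_mem_ptDiv_m q n)).1
  refine Submodule.add_mem_sup ?_ ?_
  · exact T.smul_mem_m h₁ hn
  · exact Submodule.smul_mem_smul (N := (⊤ : Submodule (C.A R) T.M)) h₂ Submodule.mem_top

theorem smul_m_ptDiv_le (T : Triple C R) : ∀ v ∈ (ptDiv q).m • T.m, v ∈ T.m := by
  intro v hv
  induction hv using Submodule.smul_induction_on' with
  | smul a ha w hw => exact T.smul_mem_m ((mem_ptDiv_m_iff q).mp ha).2 hw
  | add a _ b _ ha hb => exact add_mem ha hb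

theorem exists_pow_smul_mem_actN (T : Triple C R) {v : T.M} (hv : v ∈ actN (ptDiv q) T) :
    ∃ n : ℕ, C.Y₀ R ^ n • v ∈ (ptDiv q).m • T.m := by
  induction hv using Submodule.smul_induction_on' with
  | smul a ha w _ =>
    obtain ⟨n₁, h₁⟩ := pow_mem_ptDiv_m q ha
    obtain ⟨n₂, h₂⟩ := T.exists_pow_smul_mem_m w
    refine ⟨n₁ + n₂, ?_⟩
    rw [smul_smul, pow_add, mul_right_comm, mul_smul]
    exact Submodule.smul_mem_smul h₁ h₂
  | add a _ b _ ha hb =>
    obtain ⟨n₁, h₁⟩ := ha
    obtain ⟨n₂, h₂⟩ := hb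
    refine ⟨n₁ + n₂, ?_⟩
    rw [smul_add]
    refine add_mem ?_ ?_
    · rw [add_comm, pow_add, mul_smul]
      exact smul_mem_of_mem _ (Subalgebra.pow_mem _ (C.Y₀_mem_Cm R) _) h₁
    · rw [pow_add, mul_smul]
      exact smul_mem_of_mem _ (Subalgebra.pow_mem _ (C.Y₀_mem_Cm R) _) h₂

theorem smul_m_ptDiv_of_mem (T : Triple C R) {v : T.M} (hv : v ∈ actN (ptDiv q) T)
    (h : v ∈ T.m) : v ∈ (ptDiv q).m • T.m := by
  obtain ⟨n, hn⟩ := exists_pow_smul_mem_actN q T hv
  rw [eq_smul_add_smul T (algebraMap R (C.A R) (ptX q)) n v]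
  exact add_mem (smul_mem_of_mem _ (Subalgebra.pow_mem _ (Subalgebra.algebraMap_mem _ _) n) hn)
    (Submodule.smul_mem_smul (one_sub_pow_mem_ptDiv_m q n) h)

theorem smul_p_ptDiv_le (T : Triple C R) : ∀ v ∈ (ptDiv q).p • T.p, v ∈ T.p := by
  intro v hv
  induction hv using Submodule.smul_induction_on' with
  | smul a ha w hw =>
    refine T.smul_mem_p ?_ hw
    induction ha using Submodule.span_induction with
    | mem a ha => obtain ⟨t, -, rfl⟩ := ha; exact C.jp_mem R t
    | zero => exact zero_mem _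
    | add a b _ _ ha hb => exact add_mem ha hb
    | smul c a _ ha => exact (C.Cp R).mul_mem c.2 ha
  | add a _ b _ ha hb => exact add_mem ha hb

end

section Field

attribute [local instance] Model.commRingCp

variable {K : Type u} [Field K] [Algebra k K] (q : C.Ap →ₐ[k] K) (T : Triple C K)

/-- The first lattice has dimension one over its twist by a point. -/
theorem finrank_quotient_ptDiv :
    Module.Finite K (T.pR ⧸ (((ptDiv q).p • T.p).restrictScalars K).comap T.pR.subtype) ∧
      Module.finrank K (T.pR ⧸ (((ptDiv q).p • T.p).restrictScalars K).comap T.pR.subtype) = 1 := by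
  let e : (K ⊗[k] C.Ap) ≃ₐ[K] C.Cp K := AlgEquiv.ofInjective (C.jp K) (C.jp_injective K)
  let ev : C.Cp K →ₐ[K] K := (evalP q).comp e.symm.toAlgHom
  have hev : Function.Surjective ev := fun r => ⟨algebraMap K _ r, ev.commutes r⟩
  let : Module (C.Cp K) T.p := Submodule.module _
  let : MulAction (C.Cp K) T.p := inferInstance
  have : IsScalarTower K (C.Cp K) T.p := inferInstance
  obtain ⟨I, hI⟩ : ∃ I : Ideal (C.Cp K), I = RingHom.ker ev := ⟨_, rfl⟩
  let e₁ : (C.Cp K ⧸ I) ≃ₐ[K] K :=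
    (Ideal.quotientEquivAlgOfEq K hI).trans (Ideal.quotientKerAlgEquivOfSurjective hev)
  have : Module.Finite K (C.Cp K ⧸ I) := Module.Finite.equiv e₁.toLinearEquiv.symm
  have := T.inv_p
  obtain ⟨e₂⟩ := exists_equiv_quotient_smul (K := K) (B := C.Cp K) (N := T.p) I
  let e₀ : T.pR ≃ₗ[K] T.p :=
    { toFun := fun v => ⟨v.1, v.2⟩
      invFun := fun v => ⟨v.1, v.2⟩
      left_inv := fun _ => rfl
      right_inv := fun _ => rfl
      map_add' := fun _ _ => rfl
      map_smul' := fun _ _ => rfl }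
  have he : ∀ t, (e t : C.A K) = C.jp K t := fun _ => rfl
  have h₁ : ∀ v ∈ (ptDiv q).p • T.p, ∃ h : v ∈ T.p, (⟨v, h⟩ : T.p) ∈ I • (⊤ : Submodule (C.Cp K) T.p) := by
    intro v hv
    induction hv using Submodule.smul_induction_on' with
    | smul a ha w hw =>
      obtain ⟨hac, haI⟩ : ∃ h : a ∈ C.Cp K, (⟨a, h⟩ : C.Cp K) ∈ I := by
        induction ha using Submodule.span_induction with
        | mem a ha =>
          obtain ⟨t, ht, rfl⟩ := ha
          rw [SetLike.mem_coe, ptIdeal_eq_ker, RingHom.mem_ker] at ht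
          refine ⟨C.jp_mem K t, ?_⟩
          rw [hI, RingHom.mem_ker]
          show evalP q (e.symm (e t)) = 0
          rw [e.symm_apply_apply]; exact ht
        | zero => exact ⟨zero_mem _, I.zero_mem⟩
        | add a b _ _ ha hb => exact ⟨add_mem ha.1 hb.1, I.add_mem ha.2 hb.2⟩
        | smul c a _ ha => exact ⟨(C.Cp K).mul_mem c.2 ha.1, I.mul_mem_left c ha.2⟩
      exact ⟨T.smul_mem_p hac hw,
        Submodule.smul_mem_smul (M := T.p) haI (Submodule.mem_top (x := (⟨w, hw⟩ : T.p)))⟩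
    | add a _ b _ ha hb => exact ⟨add_mem ha.1 hb.1, add_mem ha.2 hb.2⟩
  have h₂ : ∀ w ∈ I • (⊤ : Submodule (C.Cp K) T.p), (w : T.M) ∈ (ptDiv q).p • T.p := by
    intro w hw
    induction hw using Submodule.smul_induction_on' with
    | smul c hc u _ =>
      have h : (c : C.A K) ∈ (ptDiv q).p := by
        rw [← e.apply_symm_apply c, he]
        refine Submodule.subset_span ⟨_, ?_, rfl⟩
        rw [SetLike.mem_coe, ptIdeal_eq_ker, RingHom.mem_ker]
        rw [hI, RingHom.mem_ker] at hc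
        exact hc
      exact Submodule.smul_mem_smul (M := T.M) h u.2
    | add a _ b _ ha hb => exact add_mem ha hb
  have hmap : ((((ptDiv q).p • T.p).restrictScalars K).comap T.pR.subtype).map e₀.toLinearMap =
      (I • (⊤ : Submodule (C.Cp K) T.p)).restrictScalars K := by
    refine le_antisymm ?_ fun w hw => ⟨⟨w.1, w.2⟩, h₂ w hw, rfl⟩
    rintro _ ⟨v, hv, rfl⟩
    exact (h₁ _ hv).2
  let E : (T.pR ⧸ (((ptDiv q).p • T.p).restrictScalars K).comap T.pR.subtype) ≃ₗ[K] K :=
    ((Submodule.Quotient.equiv _ _ e₀ hmap).trans e₂).trans e₁.toLinearEquiv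
  exact ⟨Module.Finite.equiv E.symm, by rw [E.finrank_eq, Module.finrank_self]⟩

/-- A sublattice of index one lowers the degree by one. -/
theorem deg_eq_sub_one_of_map {T' : Triple C K} (ι : T'.M →ₗ[K] T.M) (hι : Function.Injective ι)
    {P : Submodule K T.M} (hp : P ≤ LinearMap.range ι) (hle : P ≤ T.pR)
    (hsup : T.mR ⊔ LinearMap.range ι = ⊤) (hpR : T'.pR = P.comap ι) (hmR : T'.mR = T.mR.comap ι)
    (hfin : Module.Finite K (T.pR ⧸ P.comap T.pR.subtype))
    (hrank : Module.finrank K (T.pR ⧸ P.comap T.pR.subtype) = 1) : T'.deg = T.deg - 1 := by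
  obtain ⟨hchi, ⟨Q⟩⟩ := chiOf_comap (p := P) (m := T.mR) ι hι hp hsup
  have : Module.Finite K (T.M ⧸ (T.mR ⊔ P)) := by
    have : Module.Finite K (T'.M ⧸ (T'.pR ⊔ T'.mR)) := T'.finite_H1
    rw [hpR, hmR] at this
    have := Module.Finite.equiv Q
    exact Module.Finite.equiv (Submodule.quotEquivOfEq _ _ (sup_comm P T.mR))
  have : Module.Finite K ↥(T.mR ⊓ T.pR) := by
    have := T.finite_H0
    exact Module.Finite.equiv (LinearEquiv.ofEq _ _ (inf_comm T.pR T.mR))
  have := hfin
  have h := chiOf_mono_right (p := T.mR) (m := P) (m' := T.pR) hle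
  rw [hrank, chiOf_swap T.mR T.pR, chiOf_swap T.mR P, ← hchi, ← hpR, ← hmR] at h
  simp only [Triple.deg]
  push_cast at h
  omega

/-- The inclusion of a twist. -/
def actIncl (D : Div C K) (h : D.IsGood) : (act D h T).M →ₗ[K] T.M where
  toFun v := v.1
  map_add' _ _ := rfl
  map_smul' _ _ := rfl

theorem range_actIncl (D : Div C K) (h : D.IsGood) :
    LinearMap.range (actIncl T D h) = (actN D T).restrictScalars K :=
  le_antisymm (fun v hv => by obtain ⟨w, hw⟩ := hv; rw [← hw]; exact w.2)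
    (fun v hv => ⟨⟨v, hv⟩, rfl⟩)

/-- Removing a point lowers the degree by one. -/
theorem deg_act_ptDiv (hC : C.Regular) :
    (act _ (isGood_ptDiv hC q) T).deg = T.deg - 1 := by
  refine deg_eq_sub_one_of_map T (actIncl T _ (isGood_ptDiv hC q)) (fun a b h => Subtype.ext h)
    (P := ((ptDiv q).p • T.p).restrictScalars K) ?_ ?_ ?_ ?_ ?_ (finrank_quotient_ptDiv q T).1
    (finrank_quotient_ptDiv q T).2
  · rw [range_actIncl]; exact (isGood_ptDiv hC q).smul_p_le T
  · exact smul_p_ptDiv_le q T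
  · rw [range_actIncl]; exact actN_ptDiv_sup q T
  · exact le_antisymm (fun v hv => hv) (fun v hv => hv)
  · exact le_antisymm (fun v hv => smul_m_ptDiv_le q T _ hv)
      (fun v hv => smul_m_ptDiv_of_mem q T v.2 hv)

/-- Adding a point raises the degree by one. -/
theorem deg_act_ptInv (hC : C.Regular) :
    (act _ (isGood_ptInv hC q) T).deg = T.deg + 1 := by
  obtain ⟨E⟩ := nonempty_equiv_act_inverse (isGood_ptInv hC q) (isGood_ptDiv hC q)
    (C.isRegular_X₀_sub K _) (ptDiv_mul_ptInv hC q) T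
  have h := deg_act_ptDiv q (act _ (isGood_ptInv hC q) T) hC
  rw [← E.deg_eq] at h
  omega

/-- The exchange of the charts does not change the degree. -/
theorem deg_act_flip {D : Div C.swap K} (h : D.IsGood) (h' : IsGood (D.flip : Div C K)) :
    (act _ h' T).deg = (act D h T.swap).deg := by
  unfold Triple.deg
  rw [chi₀_swap]
  exact congrArg (· - C.chi₀) (chiOf_swap _ _)

theorem deg_swap : T.swap.deg = T.deg := by
  unfold Triple.deg
  rw [chi₀_swap]
  exact congrArg (· - C.chi₀) (chiOf_swap _ _)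

/-- Adding a point of the second chart raises the degree by one. -/
theorem deg_act_ptInvM (hC : C.Regular) (q : C.Am →ₐ[k] K) :
    (act _ (isGood_ptInvM hC q) T).deg = T.deg + 1 := by
  rw [← deg_swap T, ← deg_act_ptInv (C := C.swap) q T.swap hC.swap]
  exact deg_act_flip T _ _

variable (e : C.Pt)

theorem deg_act_shiftP (hC : C.Regular) : (act _ (isGood_shiftP e hC q) T).deg = T.deg := by
  have h := (actMul (isGood_ptInv hC q) (isGood_ptDiv hC (basePt C K e))
    (isGood_shiftP e hC q) T).deg_eq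
  rw [deg_act_ptInv q _ hC, deg_act_ptDiv _ _ hC, sub_add_cancel] at h
  exact h.symm

theorem deg_act_shiftM (hC : C.Regular) (q : C.Am →ₐ[k] K) :
    (act _ (isGood_shiftM e hC q) T).deg = T.deg := by
  have h := (actMul (isGood_ptInvM hC q) (isGood_ptDiv hC (basePt C K e))
    (isGood_shiftM e hC q) T).deg_eq
  rw [deg_act_ptInvM _ hC, deg_act_ptDiv _ _ hC, sub_add_cancel] at h
  exact h.symm

end Field

end Div

end Fermat.Agent.RelPic

end
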