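import Fermat.Agent.RelPic.Cut.ShiftPoint
import Fermat.Agent.RelPic.Cut.PointDeg
import Fermat.Agent.RelPic.Cut.Power

/-!
# The shift data of a geometric model
-/

set_option autoImplicit false
set_option synthInstance.maxHeartbeats 400000

noncomputable section

universe u

open CategoryTheory CategoryTheory.Limits AlgebraicGeometry AlgebraicGeometry.RelPicard
  NeronModelInfra GoodReductionJacobian

namespace Fermat.Agent.RelPic

variable {k : Type u} [Field k] {C : Scheme.{u}} {c : C ⟶ Spec (CommRingCat.of k)}
  {ε : SchemeHomOver (𝟙 (Spec (CommRingCat.of k))) c} (G : GeomModel c ε)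

/-- Twisting by points of the curve in a regular model. -/
def shiftData (hC : G.model.Regular) : ShiftData G where
  IsShift q X X' := IsPtShift G hC q X X'
  exists_shift q h X := exists_isPtShift q h X
  bc φ _ _ _ _ _ h hY := h.bc_iff φ hY.some
  deg_eq q X X' h := by
    rcases h with ⟨a, -, ⟨E⟩⟩ | ⟨a, -, ⟨E⟩⟩
    · rw [← E.deg_eq]; exact Div.deg_act_shiftP a X G.e hC
    · rw [← E.deg_eq]; exact Div.deg_act_shiftM X G.e hC a

@[simp]
theorem shiftData_isShift (hC : G.model.Regular) {R : Type u} [CommRing R] [Algebra k R]
    (q : SchemeHomOver (str k R) c) (X X' : Triple G.model R) :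
    (shiftData G hC).IsShift q X X' = IsPtShift G hC q X X' := rfl

end Fermat.Agent.RelPic

end
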