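import Fermat.Agent.RelPic.Cut.AddPoints
import Fermat.Agent.RelPic.Cut.ShiftInstance

/-!
# Triples of degree zero are chains of shifts of the unit triple

The length of the chain only depends on the model.
-/

set_option autoImplicit false
set_option synthInstance.maxHeartbeats 400000
set_option maxHeartbeats 1600000

noncomputable section

universe u

open CategoryTheory CategoryTheory.Limits AlgebraicGeometry AlgebraicGeometry.RelPicard
  NeronModelInfra
open scoped TensorProduct

namespace Fermat.Agent.RelPic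

namespace Div

variable {k : Type u} [Field k] {C : Model k} {R : Type u} [CommRing R] [Algebra k R]

theorem IsGood.pow {D : Div C R} (h : D.IsGood) : ∀ n : ℕ, IsGood (D ^ n)
  | 0 => by rw [pow_zero]; exact isGood_one
  | n + 1 => by rw [pow_succ]; exact (IsGood.pow h n).mul h

/-- Twists with equal total divisors agree. -/
def actActEquiv {D D' E E' : Div C R} (hD : D.IsGood) (hD' : D'.IsGood) (hE : E.IsGood)
    (hE' : E'.IsGood) (e : D * D' = E * E') (T : Triple C R) :
    Triple.Equiv (act D hD (act D' hD' T)) (act E hE (act E' hE' T)) :=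
  ((actMul hD hD' (hD.mul hD') T).trans (actEq (hD.mul hD') (hE.mul hE') e T)).trans
    (actMul hE hE' (hE.mul hE') T).symm

theorem deg_act_pow {K : Type u} [Field K] [Algebra k K] {D : Div C K} (h : D.IsGood) (r : ℤ)
    (hr : ∀ T : Triple C K, (act D h T).deg = T.deg + r) (T : Triple C K) :
    ∀ n : ℕ, (act (D ^ n) (h.pow n) T).deg = T.deg + n * r
  | 0 => by
    rw [((actEq (h.pow 0) isGood_one (pow_zero D) T).trans (actOne isGood_one T)).deg_eq]
    simp
  | n + 1 => by
    have e : Triple.Equiv (act D h (act (D ^ n) (h.pow n) T)) (act (D ^ (n + 1)) (h.pow (n + 1)) T) :=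
      (actMul h (h.pow n) (h.mul (h.pow n)) T).trans
        (actEq (h.mul (h.pow n)) (h.pow (n + 1)) (pow_succ' D n).symm T)
    rw [← e.deg_eq, hr, deg_act_pow h r hr T n]
    push_cast
    ring

end Div

open Fermat.Agent.RelPic.Div

variable {k : Type u} [Field k]

section Algebraic

variable {C : Model k} {K : Type u} [Field K] [Algebra k K] (hC : C.Regular) (e : C.Pt)

/-- `X` is the unit triple moved by `n` shifts. -/
def ShiftSeq : ℕ → Triple C K → Prop
  | 0, X => Nonempty ((C.unitTriple K).Equiv X)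
  | n + 1, X => ∃ Y, ShiftSeq n Y ∧
      ((∃ a, Nonempty ((act _ (isGood_shiftP e hC a) Y).Equiv X)) ∨
        ∃ a, Nonempty ((act _ (isGood_shiftM e hC a) Y).Equiv X))

/-- Balancing added points by the marked point. -/
theorem AddPts.shiftSeq : ∀ (n : ℕ) (Z : Triple C K), AddPts hC n Z →
    ShiftSeq hC e n
      (act (ptDiv (basePt C K e) ^ n) ((isGood_ptDiv hC (basePt C K e)).pow n) Z)
  | 0, Z, ⟨E⟩ => ⟨E.trans ((actEq ((isGood_ptDiv hC _).pow 0) isGood_one (pow_zero _) Z).trans
      (actOne isGood_one Z)).symm⟩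
  | n + 1, Z, ⟨Z₀, h, hq⟩ => by
    refine ⟨_, AddPts.shiftSeq n Z₀ h, ?_⟩
    rcases hq with ⟨q, ⟨E⟩⟩ | ⟨q, ⟨E⟩⟩
    · exact Or.inl ⟨q, ⟨(actActEquiv (isGood_shiftP e hC q) _ ((isGood_ptDiv hC _).pow (n + 1))
        (isGood_ptInv hC q) (by rw [shiftP, mul_assoc, ← pow_succ', mul_comm]) Z₀).trans
        (actCongr _ E)⟩⟩
    · exact Or.inr ⟨q, ⟨(actActEquiv (isGood_shiftM e hC q) _ ((isGood_ptDiv hC _).pow (n + 1))
        (isGood_ptInvM hC q) (by rw [shiftM, mul_assoc, ← pow_succ', mul_comm]) Z₀).trans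
        (actCongr _ E)⟩⟩

theorem ShiftSeq.congr : ∀ {n : ℕ} {X X' : Triple C K}, ShiftSeq hC e n X → X.Equiv X' →
    ShiftSeq hC e n X'
  | 0, _, _, ⟨E⟩, F => ⟨E.trans F⟩
  | _ + 1, _, _, ⟨Y, hY, hq⟩, F => ⟨Y, hY, hq.imp
      (fun ⟨a, ⟨E⟩⟩ => ⟨a, ⟨E.trans F⟩⟩) (fun ⟨a, ⟨E⟩⟩ => ⟨a, ⟨E.trans F⟩⟩)⟩

/-- The length of the chains. -/
def chainLength (C : Model k) : ℕ := (1 - C.chi₀).toNat

/-- **Degree zero triples are chains of shifts**. -/
theorem shiftSeq_of_deg [IsAlgClosed K] (X : Triple C K) (hX : X.deg = 0) :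
    ShiftSeq hC e (chainLength C) X := by
  have hdeg := deg_act_pow (isGood_ptInv hC (basePt C K e)) 1
    (fun T => deg_act_ptInv _ T hC) X (chainLength C)
  rw [hX, zero_add, mul_one] at hdeg
  obtain ⟨n, hn, hch⟩ := exists_addPts_of_deg hC
    (act _ ((isGood_ptInv hC (basePt C K e)).pow (chainLength C)) X)
    (by rw [hdeg]; simp only [chainLength]; omega)
  obtain rfl : n = chainLength C := by omega
  obtain ⟨E⟩ := nonempty_equiv_act_inverse ((isGood_ptInv hC (basePt C K e)).pow (chainLength C))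
    ((isGood_ptDiv hC (basePt C K e)).pow (chainLength C))
    (g := (C.X₀ K - algebraMap K (C.A K) (Model.ptX (basePt C K e))) ^ chainLength C)
    ((C.isRegular_X₀_sub K _).pow _)
    (by
      rw [← mul_pow, ptDiv_mul_ptInv hC]
      induction chainLength C with
      | zero =>
        rw [pow_zero, pow_zero]
        refine DivData.ext' ?_ ?_ ?_ <;>
          simp [DivData.princ, DivData.one_J, DivData.one_p, DivData.one_m, Submodule.one_eq_span]
      | succ n ih => rw [pow_succ, pow_succ, ih, DivData.princ_mul]) X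
  exact (AddPts.shiftSeq hC e _ _ hch).congr hC e E.symm

end Algebraic

variable {C : Scheme.{u}} {c : C ⟶ Spec (CommRingCat.of k)}
  {ε : SchemeHomOver (𝟙 (Spec (CommRingCat.of k))) c} {G : GeomModel c ε}

/-- The triple of sections only matters up to isomorphism. -/
theorem TripleOf.of_equiv {R : Type u} [CommRing R] [Algebra k R]
    {L : (pullback c (str k R)).Modules} {T T' : Triple G.model R} (h : TripleOf G R L T)
    (e : T.Equiv T') : TripleOf G R L T' := by
  obtain ⟨h⟩ := h
  refine ⟨{ toEquiv := e.toEquiv.symm.toAddEquiv.trans h.toEquiv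
            map_smul := fun a v => ?_
            mem_p := fun v => (e.symm.mem_p v).trans (h.mem_p _)
            mem_m := fun v => (e.symm.mem_m v).trans (h.mem_m _) }⟩
  show h.toEquiv (e.toEquiv.symm (a • v)) = _ • h.toEquiv (e.toEquiv.symm v)
  rw [map_smul, h.map_smul]

/-- **All degree zero triples over algebraically closed fields are chains of one length**. -/
theorem hasChains (hD : DictProps G) (hC : G.model.Regular) :
    HasChains (shiftData G hC) (chainLength G.model) := by
  intro K _ _ _ X hX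
  have main : ∀ (n : ℕ) (Y : Triple G.model K), ShiftSeq hC G.e n Y →
      ShiftChain (shiftData G hC) n Y := by
    intro n
    induction n with
    | zero =>
      rintro Y ⟨E⟩
      obtain ⟨U, hU, -⟩ := hD.exists_tripleOf K
        (RigidifiedLineBundle.unit (c := c) (ε := ε) (str k K))
      obtain ⟨F⟩ := nonempty_bc_unitTriple G K U hU
      obtain ⟨EU⟩ := Triple.BC.nonempty_equiv (G.model.unitBC (Algebra.ofId k K)) F
      exact hU.of_equiv (EU.symm.trans E)
    | succ n ih =>
      rintro Y ⟨Z, hZ, hq⟩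
      rcases hq with ⟨a, hE⟩ | ⟨a, hE⟩
      · exact ⟨⟨specHom a ≫ G.ιp, by rw [Category.assoc, G.ιp_c]; exact (specOver a).2⟩, Z,
          ih Z hZ, Or.inl ⟨a, rfl, hE⟩⟩
      · exact ⟨⟨specHom a ≫ G.ιm, by rw [Category.assoc, G.ιm_c]; exact (specOver a).2⟩, Z,
          ih Z hZ, Or.inr ⟨a, rfl, hE⟩⟩
  exact main _ X (shiftSeq_of_deg hC G.e X hX)

end Fermat.Agent.RelPic

end
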