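import Fermat.Agent.RelPic.Functor.Condition
import Fermat.Agent.RelPic.Dict.Sections
import Fermat.Agent.RelPic.Complex.Degree
import Fermat.Prelude.Def_AlgebraicGeometry_RelPicardAlgEquivZeroCut
import Mathlib.AlgebraicGeometry.Geometrically.Integral

/-!
# Algebraic equivalence to zero on the geometric fibres, and the degree

The geometric fibres are the curves over the algebraically closed fields over `k`; the degree is
locally constant, so algebraically trivial bundles have degree zero.
-/

set_option autoImplicit false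
set_option linter.style.haveILetI false
set_option linter.unusedSectionVars false

noncomputable section

universe u

open CategoryTheory CategoryTheory.Limits AlgebraicGeometry AlgebraicGeometry.RelPicard
  NeronModelInfra

namespace Fermat.Agent.RelPic

variable {k : Type u} [Field k] {C : Scheme.{u}} {c : C ⟶ Spec (CommRingCat.of k)}
  {ε : SchemeHomOver (𝟙 (Spec (CommRingCat.of k))) c}
  {T : Scheme.{u}} {t : T ⟶ Spec (CommRingCat.of k)}

/-- Fibrewise algebraic triviality is a condition on the geometric points over `k`. -/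
theorem fibrewiseAlgEquivZero_iff (M : RigidifiedLineBundle c ε t) :
    FibrewiseAlgEquivZero M ↔ ∀ (K : Type u) [Field K] [Algebra k K] [IsAlgClosed K]
      (g : SchemeHomOver (str k K) t),
        IsAlgEquivZero (pullback.snd c (str k K)) (M.pullbackAlong g).L := by
  constructor
  · intro hM K _ _ _ g
    let e : pullback c (str k K) ⟶ pullback (pullback.snd c t) g.1 :=
      pullback.lift (baseChangeSnd c g) (pullback.snd c (str k K)) (pullback.lift_snd _ _ _)
    exact IsAlgEquivZero.of_iso
      ((Scheme.Modules.pullbackComp _ _).app M.L ≪≫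
        (Scheme.Modules.pullbackCongr (pullback.lift_fst _ _ _)).app M.L)
      ((hM K g.1).pullback e (pullback.lift_snd _ _ _))
  · intro hM K _ _ s
    letI := algOf (R := K) (s ≫ t)
    let g : SchemeHomOver (str k K) t := ⟨s, (str_algOf (R := K) _).symm⟩
    have hc : (pullback.fst (pullback.snd c t) s ≫ pullback.fst c t) ≫ c =
        pullback.snd (pullback.snd c t) s ≫ str k K := by
      rw [str_algOf (R := K) (s ≫ t), Category.assoc, pullback.condition, pullback.condition_assoc]
    let e : pullback (pullback.snd c t) s ⟶ pullback c (str k K) := pullback.lift _ _ hc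
    have he : e ≫ baseChangeSnd c g = pullback.fst (pullback.snd c t) s := by
      apply pullback.hom_ext
      · rw [Category.assoc, baseChangeSnd, pullback.lift_fst, Category.comp_id, pullback.lift_fst]
      · rw [Category.assoc, baseChangeSnd, pullback.lift_snd, pullback.lift_snd_assoc]
        exact pullback.condition.symm
    exact IsAlgEquivZero.of_iso
      ((Scheme.Modules.pullbackComp _ _).app M.L ≪≫
        (Scheme.Modules.pullbackCongr he).app M.L)
      ((hM K g).pullback e (pullback.lift_snd _ _ _))

variable {G : GeomModel c ε} (hD : DictProps G)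
include hD

/-- The degree of an invertible module at the field points is locally constant. -/
theorem exists_isLocallyConstant_degPt (L : (pullback c t).Modules)
    (hL : Scheme.Modules.IsInvertible L) :
    ∃ f : T → ℤ, IsLocallyConstant f ∧ ∀ (K : Type u) [Field K] [Algebra k K]
      (g : SchemeHomOver (str k K) t) (X : Triple G.model K),
      TripleOf G K ((Scheme.Modules.pullback (baseChangeSnd c g)).obj L) X →
        X.deg = f (g.1 (IsLocalRing.closedPoint K)) := by
  classical
  have hpiece : ∀ x : T, ∃ (V : Set T), IsOpen V ∧ x ∈ V ∧ ∃ f : T → ℤ,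
      (∀ y ∈ V, ∃ W : Set T, IsOpen W ∧ y ∈ W ∧ ∀ z ∈ W, z ∈ V ∧ f z = f y) ∧
      ∀ (K : Type u) [Field K] [Algebra k K] (g : SchemeHomOver (str k K) t) (X : Triple G.model K),
        TripleOf G K ((Scheme.Modules.pullback (baseChangeSnd c g)).obj L) X →
          g.1 (IsLocalRing.closedPoint K) ∈ V → X.deg = f (g.1 (IsLocalRing.closedPoint K)) := by
    intro x
    obtain ⟨V, hV, hxV, -⟩ :=
      exists_isAffineOpen_mem_and_subset (X := T) (x := x) (U := ⊤) trivial
    letI := algOf (R := Γ(T, V)) (hV.fromSpec ≫ t)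
    let ψ : SchemeHomOver (str k Γ(T, V)) t := ⟨hV.fromSpec, (str_algOf (R := Γ(T, V)) _).symm⟩
    obtain ⟨TV, hTV⟩ := exists_tripleOf_of_isInvertible (G := G)
      (L := (Scheme.Modules.pullback (baseChangeSnd c ψ)).obj L) (hL.pullback _)
    obtain ⟨f, hf, hdeg⟩ := TV.exists_isLocallyConstant_deg
    have hinj : Function.Injective ψ.1 := hV.fromSpec.isOpenEmbedding.injective
    refine ⟨V, V.2, hxV, Function.extend ψ.1 f 0, fun y hy => ?_, fun K _ _ g X hX hg => ?_⟩
    · obtain ⟨p, rfl⟩ : y ∈ Set.range hV.fromSpec := by rw [hV.range_fromSpec]; exact hy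
      obtain ⟨U, hU, hpU, hUf⟩ := hf.exists_open p
      refine ⟨hV.fromSpec '' U, hV.fromSpec.isOpenEmbedding.isOpenMap _ hU, ⟨p, hpU, rfl⟩, ?_⟩
      rintro _ ⟨p', hp', rfl⟩
      refine ⟨hV.range_fromSpec ▸ ⟨p', rfl⟩, ?_⟩
      show Function.extend ψ.1 f 0 (ψ.1 p') = Function.extend ψ.1 f 0 (ψ.1 p)
      rw [hinj.extend_apply, hinj.extend_apply, hUf p' hp']
    · have hr : Set.range g.1 ⊆ Set.range hV.fromSpec := by
        rintro _ ⟨z, rfl⟩
        rw [Subsingleton.elim z (IsLocalRing.closedPoint K), hV.range_fromSpec]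
        exact hg
      obtain ⟨φ, hφ⟩ := specOver_surjective (k := k) (R := Γ(T, V)) (R' := K)
        ⟨IsOpenImmersion.lift hV.fromSpec g.1 hr,
          ((congrArg (fun v => IsOpenImmersion.lift hV.fromSpec g.1 hr ≫ v) ψ.2.symm).trans
            (Category.assoc _ _ _).symm).trans
            ((congrArg (fun v => v ≫ t) (IsOpenImmersion.lift_fac hV.fromSpec g.1 hr)).trans g.2)⟩
      have e : postComp ψ (specOver φ) = g := Subtype.ext (by
        show (specOver φ).1 ≫ hV.fromSpec = g.1
        rw [hφ]
        exact IsOpenImmersion.lift_fac _ _ _)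
      have hX' : TripleOf G K ((Scheme.Modules.pullback (baseChangeSnd c (specOver φ))).obj
          ((Scheme.Modules.pullback (baseChangeSnd c ψ)).obj L)) X :=
        hX.of_iso ((Scheme.Modules.pullbackComp _ _).app L ≪≫
          (Scheme.Modules.pullbackCongr
            ((baseChangeSnd_comp c ψ (specOver φ)).trans (congrArg (baseChangeSnd c) e))).app L).symm
      obtain ⟨F⟩ := (hD.bc_iff Γ(T, V) K φ _ TV X (hL.pullback _) hTV).mp hX'
      rw [hdeg K φ X F, ← congrArg Subtype.val e]
      show f _ = Function.extend ψ.1 f 0 (ψ.1 ((specOver φ).1 (IsLocalRing.closedPoint K)))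
      rw [hinj.extend_apply]
      refine congrArg f (PrimeSpectrum.ext ?_)
      show RingHom.ker φ.toRingHom = Ideal.comap φ.toRingHom (IsLocalRing.maximalIdeal K)
      rw [IsLocalRing.maximalIdeal_eq_bot, ← RingHom.ker_eq_comap_bot]
  choose V hV hxV F hF hFdeg using hpiece
  let f : T → ℤ := fun x => F x x
  have hind : ∀ x, ∀ y ∈ V x, F x y = f y := fun x y hy => by
    letI := algOf (R := T.residueField y) (T.fromSpecResidueField y ≫ t)
    have hpt : (resPt t y).1 (IsLocalRing.closedPoint (T.residueField y)) = y :=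
      T.fromSpecResidueField_apply y _
    obtain ⟨X, hX⟩ := exists_tripleOf_of_isInvertible (G := G)
      (L := (Scheme.Modules.pullback (baseChangeSnd c (resPt t y))).obj L) (hL.pullback _)
    have h1 := hFdeg x _ (resPt t y) X hX (by rw [hpt]; exact hy)
    have h2 := hFdeg y _ (resPt t y) X hX (by rw [hpt]; exact hxV y)
    rw [hpt] at h1 h2
    exact h1.symm.trans h2
  refine ⟨f, (IsLocallyConstant.iff_exists_open f).mpr fun x => ?_, fun K _ _ g X hX => ?_⟩
  · obtain ⟨W, hW, hxW, hWf⟩ := hF x x (hxV x)
    refine ⟨W, hW, hxW, fun z hz => ?_⟩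
    rw [← hind x z (hWf z hz).1]
    exact (hWf z hz).2
  · exact hFdeg _ K g X hX (hxV _)

/-- A bundle algebraically equivalent to zero has degree zero. -/
theorem deg_eq_zero_of_isAlgEquivZero
    (hu : ∀ (K : Type u) [Field K] [Algebra k K] (X : Triple G.model K),
      TripleOf G K (RigidifiedLineBundle.unit (c := c) (ε := ε) (str k K)).L X → X.deg = 0)
    {K : Type u} [Field K] [Algebra k K] {L : (pullback c (str k K)).Modules}
    (hL : IsAlgEquivZero (pullback.snd c (str k K)) L) {X : Triple G.model K}
    (hX : TripleOf G K L X) : X.deg = 0 := by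
  obtain ⟨T', h, hft, hgi, M, hM, t₀, t₁, ⟨e₀⟩, ⟨e₁⟩⟩ := hL
  haveI := hgi
  haveI : IsIntegral T' := GeometricallyIntegral.isIntegral_of_subsingleton h
  let e : pullback c (h ≫ str k K) ⟶ pullback (pullback.snd c (str k K)) h :=
    pullback.lift
      (pullback.lift (pullback.fst c (h ≫ str k K)) (pullback.snd c (h ≫ str k K) ≫ h)
        (pullback.condition.trans (Category.assoc _ _ _).symm))
      (pullback.snd c (h ≫ str k K)) (pullback.lift_snd _ _ _)
  obtain ⟨f, hf, hdeg⟩ := exists_isLocallyConstant_degPt (t := h ≫ str k K) hD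
    ((Scheme.Modules.pullback e).obj M) (hM.pullback _)
  let j : pullback c (str k K) ⟶ pullback (pullback.snd c (str k K)) (𝟙 (Spec (CommRingCat.of K))) :=
    pullback.lift (𝟙 _) (pullback.snd c (str k K)) (by rw [Category.id_comp, Category.comp_id])
  have key : ∀ τ : SchemeHomOver (𝟙 (Spec (CommRingCat.of K))) h,
      baseChangeSnd c (⟨τ.1, by rw [← Category.assoc, τ.2, Category.id_comp]⟩ :
        SchemeHomOver (str k K) (h ≫ str k K)) ≫ e =
      j ≫ baseChangeSnd (pullback.snd c (str k K)) τ := fun τ => by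
    apply pullback.hom_ext
    · apply pullback.hom_ext
      · simp only [e, j, baseChangeSnd, Category.assoc, pullback.lift_fst, Category.comp_id,
          Category.id_comp]
      · simp only [e, j, baseChangeSnd, Category.assoc, pullback.lift_fst, pullback.lift_snd,
          pullback.lift_snd_assoc, Category.comp_id, Category.id_comp, τ.2]
    · simp only [e, j, baseChangeSnd, Category.assoc, pullback.lift_snd, pullback.lift_snd_assoc]
  let τ₀ : SchemeHomOver (str k K) (h ≫ str k K) :=
    ⟨t₀.1, by rw [← Category.assoc, t₀.2, Category.id_comp]⟩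
  let τ₁ : SchemeHomOver (str k K) (h ≫ str k K) :=
    ⟨t₁.1, by rw [← Category.assoc, t₁.2, Category.id_comp]⟩
  let iso := fun τ (hτ : baseChangeSnd c (⟨(τ : SchemeHomOver (𝟙 _) h).1, by
        rw [← Category.assoc, τ.2, Category.id_comp]⟩ :
          SchemeHomOver (str k K) (h ≫ str k K)) ≫ e =
      j ≫ baseChangeSnd (pullback.snd c (str k K)) τ) =>
    (Scheme.Modules.pullbackComp _ _).app M ≪≫ (Scheme.Modules.pullbackCongr hτ).app M ≪≫
      ((Scheme.Modules.pullbackComp _ _).app M).symm
  have h0 : TripleOf G K ((Scheme.Modules.pullback (baseChangeSnd c τ₁)).obj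
      ((Scheme.Modules.pullback e).obj M)) X :=
    hX.of_iso (iso t₁ (key t₁) ≪≫ (Scheme.Modules.pullback j).mapIso e₁ ≪≫
      (Scheme.Modules.pullbackComp _ _).app L ≪≫
      (Scheme.Modules.pullbackCongr (pullback.lift_fst _ _ _)).app L ≪≫
      (Scheme.Modules.pullbackId _).app L).symm
  obtain ⟨X₀, hX₀⟩ := exists_tripleOf_of_isInvertible (G := G)
    (L := (Scheme.Modules.pullback (baseChangeSnd c τ₀)).obj ((Scheme.Modules.pullback e).obj M))
    ((hM.pullback _).pullback _)
  have hX₀' : X₀.deg = 0 := hu K X₀ (hX₀.of_iso (iso t₀ (key t₀) ≪≫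
    (Scheme.Modules.pullback j).mapIso e₀ ≪≫ Scheme.Modules.pullbackUnitIso _))
  rw [← hX₀', hdeg K τ₁ X h0, hdeg K τ₀ X₀ hX₀]
  exact hf.apply_eq_of_preconnectedSpace _ _

end Fermat.Agent.RelPic

end
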