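import Fermat.Agent.RelPic.Functor.Condition
import Fermat.Agent.RelPic.Complex.Equiv
import Fermat.Prelude.Def_AlgebraicGeometry_RepresentsRelSubPic

/-!
# Morphisms to the representing scheme from triples on an open cover

For a scheme `D` representing degree zero rigidified bundles, an affine point of `D` is the same as
the isomorphism class of a rigid triple of degree zero, and compatible triples on an open cover
glue to a morphism.
-/

set_option autoImplicit false
set_option linter.style.haveILetI false
set_option linter.unusedSectionVars false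

noncomputable section

universe u

open CategoryTheory CategoryTheory.Limits AlgebraicGeometry AlgebraicGeometry.RelPicard
  NeronModelInfra GoodReductionJacobian

namespace Fermat.Agent.RelPic

variable {k : Type u} [Field k] {C : Scheme.{u}} {c : C ⟶ Spec (CommRingCat.of k)}
  {ε : SchemeHomOver (𝟙 (Spec (CommRingCat.of k))) c} {G : GeomModel c ε}
  {P : SubPicCondition c ε} {D : RelativePic0Designation k c}

/-- The condition `P` is degree zero on all fibres. -/
def IsDegreeCut (G : GeomModel c ε) (P : SubPicCondition c ε) : Prop :=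
  ∀ {T : Scheme.{u}} (t : T ⟶ Spec (CommRingCat.of k)) (M : RigidifiedLineBundle c ε t),
    P.P t M ↔ FibDegZero G M

variable (h : RepresentsRelSubPic c ε P D) {R : Type u} [CommRing R] [Algebra k R]

/-- `X` is the triple of the universal bundle at the affine point `g`. -/
def PtTriple (G : GeomModel c ε) (g : SchemeHomOver (str k R) D.toBase) (X : Triple G.model R) :
    Prop :=
  TripleOf G R (h.poincare.pullbackAlong g).L X

variable (hD : DictProps G) {h}
include hD

/-- Base change of the triple of a point. -/
theorem PtTriple.bc_iff {g : SchemeHomOver (str k R) D.toBase} {X : Triple G.model R}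
    (hX : PtTriple h G g X) {R' : Type u} [CommRing R'] [Algebra k R'] (φ : R →ₐ[k] R')
    (X' : Triple G.model R') :
    PtTriple h G (postComp g (specOver φ)) X' ↔ Nonempty (Triple.BC φ X X') := by
  rw [← hD.bc_iff R R' φ _ X X' (h.poincare.pullbackAlong g).isInvertible hX]
  exact ⟨fun h' => h'.of_iso (pullbackAlong_comp h.poincare g (specOver φ)).some.symm,
    fun h' => h'.of_iso (pullbackAlong_comp h.poincare g (specOver φ)).some⟩

/-- Every affine point has a rigid triple. -/
theorem exists_ptTriple (g : SchemeHomOver (str k R) D.toBase) :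
    ∃ X : Triple G.model R, PtTriple h G g X ∧ X.IsRigid G.e :=
  hD.exists_tripleOf R (h.poincare.pullbackAlong g)

/-- A point is determined by the isomorphism class of its triple. -/
theorem PtTriple.ext {g g' : SchemeHomOver (str k R) D.toBase} {X X' : Triple G.model R}
    (hX : PtTriple h G g X) (hX' : PtTriple h G g' X') (e : Nonempty (X.Equiv X')) : g = g' :=
  h.ext_of_iso (str k R) g g'
    ((hD.iso_iff R _ _ X X' (h.poincare.pullbackAlong g).isInvertible
      (h.poincare.pullbackAlong g').isInvertible hX hX').mpr e)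

/-- A point is determined by its triple. -/
theorem PtTriple.eq {g g' : SchemeHomOver (str k R) D.toBase} {X : Triple G.model R}
    (hX : PtTriple h G g X) (hX' : PtTriple h G g' X) : g = g' :=
  hX.ext hD hX' ⟨Triple.Equiv.refl X⟩

variable (hP : IsDegreeCut G P)
include hP

/-- The triples of points have degree zero. -/
theorem PtTriple.isDegZero {g : SchemeHomOver (str k R) D.toBase} {X : Triple G.model R}
    (hX : PtTriple h G g X) : X.IsDegZero := fun K _ _ φ X' hX' =>
  (hP D.toBase h.poincare).mp h.poincare_mem K (postComp g (specOver φ)) X'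
    ((hX.bc_iff hD φ X').mpr hX')

/-- A rigid triple of degree zero is the triple of a point. -/
theorem exists_point {X : Triple G.model R} (hr : X.IsRigid G.e) (hdeg : X.IsDegZero) :
    ∃ g : SchemeHomOver (str k R) D.toBase, PtTriple h G g X := by
  obtain ⟨M, hM⟩ := hD.exists_rigidified R X hr
  have hMP : P.P (str k R) M := (hP _ M).mpr fun K _ _ g X' hX' => by
    obtain ⟨φ, rfl⟩ := specOver_surjective g
    exact hdeg K φ X' ((hD.bc_iff R K φ M.L X X' M.isInvertible hM).mp hX')
  exact ⟨h.classify (str k R) M hMP, hM.of_iso (h.classify_spec (str k R) M hMP).some.symm⟩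

omit [Algebra k R] in
/-- Compatible triples on an open cover glue to a morphism. -/
theorem exists_morphism_of_triples {T : Scheme.{u}} (t : T ⟶ Spec (CommRingCat.of k))
    {ι : Type u} (S : ι → Type u) [∀ i, CommRing (S i)] [∀ i, Algebra k (S i)]
    (f : ∀ i, SchemeHomOver (str k (S i)) t) [∀ i, IsOpenImmersion (f i).1]
    (hcov : ∀ x : T, ∃ i, x ∈ Set.range (f i).1) (X : ∀ i, Triple G.model (S i))
    (hr : ∀ i, (X i).IsRigid G.e) (hdeg : ∀ i, (X i).IsDegZero)
    (hc : ∀ (i j : ι) (R' : Type u) [CommRing R'] [Algebra k R'] (φ : S i →ₐ[k] R')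
      (φ' : S j →ₐ[k] R'), specHom φ ≫ (f i).1 = specHom φ' ≫ (f j).1 →
      ∀ X' : Triple G.model R', Nonempty (Triple.BC φ (X i) X') →
        Nonempty (Triple.BC φ' (X j) X')) :
    ∃ g : SchemeHomOver t D.toBase, ∀ i, PtTriple h G (postComp g (f i)) (X i) := by
  choose g hg using fun i => exists_point (h := h) hD hP (hr i) (hdeg i)
  have key : ∀ i j, pullback.fst (f i).1 (f j).1 ≫ (g i).1 =
      pullback.snd (f i).1 (f j).1 ≫ (g j).1 := fun i j => by
    refine (pullback (f i).1 (f j).1).affineCover.hom_ext _ _ fun x => ?_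
    obtain ⟨A, a, ha⟩ : ∃ (A : CommRingCat.{u}) (a : Spec A ⟶ pullback (f i).1 (f j).1),
        (∀ v w : pullback (f i).1 (f j).1 ⟶ D.P, a ≫ v = a ≫ w →
          (pullback (f i).1 (f j).1).affineCover.f x ≫ v =
            (pullback (f i).1 (f j).1).affineCover.f x ≫ w) :=
      ⟨_, (pullback (f i).1 (f j).1).affineCover.f x, fun _ _ e => e⟩
    refine ha _ _ ?_
    letI : Algebra k A :=
      algOf (R := A) ((a ≫ pullback.fst (f i).1 (f j).1) ≫ str k (S i))
    have hA : str k A = (a ≫ pullback.fst (f i).1 (f j).1) ≫ str k (S i) := str_algOf (R := A) _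
    have hB : (a ≫ pullback.snd (f i).1 (f j).1) ≫ str k (S j) = str k A := by
      calc (a ≫ pullback.snd (f i).1 (f j).1) ≫ str k (S j)
          = (a ≫ pullback.snd (f i).1 (f j).1) ≫ (f j).1 ≫ t :=
            congrArg (fun v => (a ≫ pullback.snd (f i).1 (f j).1) ≫ v) (f j).2.symm
        _ = (a ≫ pullback.fst (f i).1 (f j).1) ≫ (f i).1 ≫ t := by
            rw [Category.assoc, Category.assoc, pullback.condition_assoc]
        _ = str k A := (congrArg (fun v => (a ≫ pullback.fst (f i).1 (f j).1) ≫ v)
            (f i).2).trans hA.symm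
    obtain ⟨φ, hφ⟩ := specOver_surjective (k := k) (R := S i) (R' := A) ⟨_, hA.symm⟩
    obtain ⟨φ', hφ'⟩ := specOver_surjective (k := k) (R := S j) (R' := A) ⟨_, hB⟩
    have hφ1 : specHom φ = a ≫ pullback.fst (f i).1 (f j).1 := congrArg Subtype.val hφ
    have hφ1' : specHom φ' = a ≫ pullback.snd (f i).1 (f j).1 := congrArg Subtype.val hφ'
    obtain ⟨X', hX', -⟩ := exists_ptTriple (h := h) hD (postComp (g i) (specOver φ))
    have h2 : PtTriple h G (postComp (g j) (specOver φ')) X' :=
      ((hg j).bc_iff hD φ' X').mpr (hc i j A φ φ'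
        (by rw [hφ1, hφ1', Category.assoc, Category.assoc, pullback.condition]) X'
        (((hg i).bc_iff hD φ X').mp hX'))
    have h3 := congrArg Subtype.val (hX'.eq hD h2)
    change specHom φ ≫ (g i).1 = specHom φ' ≫ (g j).1 at h3
    rw [hφ1, hφ1', Category.assoc, Category.assoc] at h3
    exact h3
  let 𝒰 : T.OpenCover := Scheme.Cover.mkOfCovers ι (fun i => Spec (CommRingCat.of (S i)))
    (fun i => (f i).1) (fun x => by
      obtain ⟨i, y, hy⟩ := hcov x
      exact ⟨i, y, hy⟩) (fun i => inferInstance)
  have hι : ∀ i : ι, (f i).1 ≫ 𝒰.glueMorphisms (fun i => (g i).1) key = (g i).1 := fun i =>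
    𝒰.ι_glueMorphisms (fun i => (g i).1) key i
  have hover : 𝒰.glueMorphisms (fun i => (g i).1) key ≫ D.toBase = t := 𝒰.hom_ext _ _ fun i =>
    (Category.assoc _ _ _).symm.trans
      ((congrArg (fun v => v ≫ D.toBase) (hι i)).trans ((g i).2.trans (f i).2.symm))
  refine ⟨⟨_, hover⟩, fun i => ?_⟩
  have e : postComp ⟨_, hover⟩ (f i) = g i := Subtype.ext (hι i)
  rw [e]
  exact hg i

end Fermat.Agent.RelPic

end
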