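import Fermat.Agent.RelPic.Complex.Equiv
import Fermat.Agent.RelPic.Complex.BaseChange
import Mathlib.RingTheory.Localization.Away.Basic

/-!
# A triple is rigid locally on the base
-/

set_option autoImplicit false
set_option synthInstance.maxHeartbeats 400000

noncomputable section

universe u

namespace Fermat.Agent.RelPic

variable {k : Type u} [Field k] {C : Model k} {R : Type u} [CommRing R] [Algebra k R]

namespace Triple

/-- A functional and an element whose value along the section avoids a given prime. -/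
theorem exists_functional_notMem (T : Triple C R) (e : C.Pt) (q : Ideal R) [q.IsPrime] :
    ∃ (ψ : T.M →ₗ[C.A R] C.A R) (v : T.M), C.evalR R e (ψ v) ∉ q := by
  by_contra hne
  push Not at hne
  have := T.invertible
  obtain ⟨t, ht⟩ := (Module.Invertible.bijective (R := C.A R) (M := T.M)).surjective 1
  have hall : ∀ t, C.evalR R e (contractLeft (C.A R) T.M t) ∈ q := fun t => by
    induction t using TensorProduct.induction_on with
    | zero => rw [map_zero, map_zero]; exact q.zero_mem
    | tmul ψ v => rw [contractLeft_apply]; exact hne ψ v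
    | add x y hx hy => rw [map_add, map_add]; exact q.add_mem hx hy
  have h1 := hall t
  rw [ht, map_one] at h1
  exact Ideal.IsPrime.ne_top' ((Ideal.eq_top_iff_one q).mpr h1)

/-- A base change along which a value of a functional becomes a unit is rigid. -/
theorem isRigid_of_isUnit {R' : Type u} [CommRing R'] [Algebra k R'] {φ : R →ₐ[k] R'}
    {T : Triple C R} {T' : Triple C R'} (F : BC φ T T') (e : C.Pt) (ψ : T.M →ₗ[C.A R] C.A R)
    (v : T.M) (hv : IsUnit (φ (C.evalR R e (ψ v)))) : T'.IsRigid e := by
  let : Module (C.A R') R' := Module.compHom R' (C.evalR R' e).toRingHom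
  obtain ⟨r', hr'⟩ := F.exists_lift (N := R')
    (φ.toAddMonoidHom.comp ((C.evalR R e).toAddMonoidHom.comp ψ.toAddMonoidHom)) fun a w => by
    show φ (C.evalR R e (ψ (a • w))) = C.evalR R' e (C.mapA φ a) * φ (C.evalR R e (ψ w))
    rw [_root_.map_smul, smul_eq_mul, map_mul, map_mul, C.evalR_mapA]
  have hsm : ∀ (a : C.A R') w, r' (a • w) = C.evalR R' e a * r' w := fun a w =>
    _root_.map_smul r' a w
  have hR : ∀ (s : R') w, r' (s • w) = s * r' w := fun s w => by
    rw [smul_R_eq, hsm, AlgHom.commutes]; rfl
  refine ⟨{ toFun := r', map_add' := _root_.map_add r', map_smul' := fun s w => hR s w }, hsm,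
    fun s => ?_⟩
  obtain ⟨u, hu⟩ := hv
  refine ⟨(s * ↑u⁻¹) • F.toFun v, (hR _ _).trans ?_⟩
  rw [hr']
  show s * ↑u⁻¹ * φ (C.evalR R e (ψ v)) = s
  rw [← hu, mul_assoc, Units.inv_mul, mul_one]

/-- Near every prime of the base a triple becomes rigid. -/
theorem exists_rigid_away (T : Triple C R) (e : C.Pt) (q : Ideal R) [q.IsPrime] :
    ∃ f ∉ q, ∃ T' : Triple C (Localization.Away f),
      Nonempty (BC (IsScalarTower.toAlgHom k R (Localization.Away f)) T T') ∧ T'.IsRigid e := by
  obtain ⟨ψ, v, hv⟩ := T.exists_functional_notMem e q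
  obtain ⟨T', ⟨F⟩⟩ := C.hasBaseChange R (Localization.Away (C.evalR R e (ψ v)))
    (IsScalarTower.toAlgHom k R _) T
  exact ⟨_, hv, T', ⟨F⟩, isRigid_of_isUnit F e ψ v (IsLocalization.Away.algebraMap_isUnit _)⟩

end Triple

end Fermat.Agent.RelPic
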