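import Fermat.Agent.RelPic.Cut.PointDeg
import Fermat.Agent.RelPic.Curve.Dedekind
import Mathlib.RingTheory.Jacobson.Artinian

/-!
# Zeros of a section

Over an algebraically closed field a lattice is finite over a section, and a section that does not
generate the lattice vanishes at a point of the chart.
-/

set_option autoImplicit false

noncomputable section

universe u

open scoped TensorProduct Pointwise

namespace Fermat.Agent.RelPic

-- dead ends of the instance search in this file
attribute [local instance high] Submodule.module Submodule.addCommMonoid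
attribute [-instance] NormedAlgebra.toAlgebra LieRinehartAlgebra.toIsScalarTower

/-- The quotient of a smaller pair of subspaces is smaller. -/
theorem quotient_comap_mono {K V W : Type u} [Field K] [AddCommGroup V] [Module K V]
    [AddCommGroup W] [Module K W] (ι : W →ₗ[K] V) (hι : Function.Injective ι)
    {P' U' : Submodule K W} {P U : Submodule K V} (hP : P'.map ι ≤ P) (hU : U'.map ι = U)
    (hle : U' ≤ P') [Module.Finite K (P ⧸ U.comap P.subtype)] :
    Module.Finite K (P' ⧸ U'.comap P'.subtype) ∧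
      Module.finrank K (P' ⧸ U'.comap P'.subtype) ≤ Module.finrank K (P ⧸ U.comap P.subtype) ∧
      (¬ P ≤ P'.map ι → Module.finrank K (P' ⧸ U'.comap P'.subtype) <
        Module.finrank K (P ⧸ U.comap P.subtype)) := by
  let f₀ : P' →ₗ[K] P := (ι ∘ₗ P'.subtype).codRestrict P fun v => hP ⟨v, v.2, rfl⟩
  let f := (U'.comap P'.subtype).mapQ (U.comap P.subtype) f₀
    fun v hv => show ι (v : W) ∈ U from hU ▸ ⟨v, hv, rfl⟩
  have hf : Function.Injective f := by
    refine (injective_iff_map_eq_zero f).mpr fun x hx => ?_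
    obtain ⟨v, rfl⟩ := Submodule.mkQ_surjective _ x
    have hv : ι (v : W) ∈ U := (Submodule.Quotient.mk_eq_zero (U.comap P.subtype)).mp hx
    rw [← hU] at hv
    obtain ⟨w, hw, e⟩ := hv
    exact (Submodule.Quotient.mk_eq_zero (U'.comap P'.subtype)).mpr
      (show (v : W) ∈ U' from hι e ▸ hw)
  refine ⟨Module.Finite.of_injective f hf, LinearMap.finrank_le_finrank_of_injective hf,
    fun hne => ?_⟩
  rw [← LinearMap.finrank_range_of_inj hf]
  refine Submodule.finrank_lt fun htop => hne fun v hv => ?_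
  obtain ⟨x, hx⟩ := htop.ge (Submodule.mem_top (x := Submodule.Quotient.mk (⟨v, hv⟩ : P)))
  obtain ⟨w, rfl⟩ := Submodule.mkQ_surjective _ x
  have h : ι (w : W) - v ∈ U := (Submodule.Quotient.eq (U.comap P.subtype)).mp hx
  rw [← hU] at h
  obtain ⟨z, hz, e⟩ := h
  exact ⟨w - z, sub_mem w.2 (hle hz), by rw [map_sub, e, sub_sub_cancel]⟩

variable {k : Type u} [Field k] {C : Model k} {K : Type u} [Field K] [Algebra k K] [IsAlgClosed K]

namespace Model.Regular

attribute [local instance] Model.commRingCp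

variable (hC : C.Regular)
include hC

omit [IsAlgClosed K] in
theorem finiteType_Cp : Algebra.FiniteType K (C.Cp K) := by
  have := hC.finiteType_p
  have : Algebra.FiniteType K (K ⊗[k] C.Ap) := Algebra.FiniteType.baseChange K
  exact Algebra.FiniteType.equiv this (AlgEquiv.ofInjective (C.jp K) (C.jp_injective K))

theorem finite_quotient_Cp {a : C.Cp K} (ha : a ≠ 0) :
    Module.Finite K (C.Cp K ⧸ Ideal.span {a}) := by
  have := hC.dedekind_p K
  have := hC.finiteType_Cp (K := K)
  have : Algebra.FiniteType K (C.Cp K ⧸ Ideal.span {a}) :=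
    Algebra.FiniteType.of_surjective (Ideal.Quotient.mkₐ K (Ideal.span {a}))
      Ideal.Quotient.mk_surjective
  refine (Module.finite_iff_krullDimLE_zero K _).mpr (Ring.KrullDimLE.mk₀ fun P hP => ?_)
  have hp := hP.comap (Ideal.Quotient.mk (Ideal.span {a}))
  have hne : P.comap (Ideal.Quotient.mk (Ideal.span {a})) ≠ ⊥ := fun h => ha (by
    have h' : a ∈ P.comap (Ideal.Quotient.mk (Ideal.span {a})) := by
      rw [Ideal.mem_comap, Ideal.Quotient.eq_zero_iff_mem.mpr (Ideal.mem_span_singleton_self a)]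
      exact P.zero_mem
    rw [h] at h'
    exact h')
  have := hp.isMaximal hne
  have h2 := Ideal.map_eq_top_or_isMaximal_of_surjective
    (Ideal.Quotient.mk (Ideal.span {a})) Ideal.Quotient.mk_surjective this
  rw [Ideal.map_comap_of_surjective _ Ideal.Quotient.mk_surjective] at h2
  exact h2.resolve_left hP.ne_top

end Model.Regular

namespace Triple

attribute [local instance] Model.commRingCp

/-- The multiples of a section in the first chart. -/
abbrev spanP (Y : Triple C K) (s : Y.M) : Submodule K Y.M :=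
  (Submodule.span (C.Cp K) {s}).restrictScalars K

variable (hC : C.Regular) (Y : Triple C K)
include hC

/-- The first lattice is finite over a section. -/
theorem finite_quotient_spanP {s : Y.M} (hs : s ∈ Y.p) (hs0 : s ≠ 0) :
    Module.Finite K (Y.pR ⧸ (spanP Y s).comap Y.pR.subtype) := by
  have := Y.inv_p
  obtain ⟨f, hf⟩ := exists_dual_ne_zero (A := C.Cp K) (v := (⟨s, hs⟩ : Y.p))
    fun h => hs0 (congrArg Subtype.val h)
  have hfin := hC.finite_quotient_Cp hf
  obtain ⟨e⟩ := exists_equiv_quotient_smul (K := K) (B := C.Cp K) (N := Y.p)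
    (Ideal.span {f ⟨s, hs⟩})
  have := Module.Finite.equiv e.symm
  let g : Y.p →ₗ[K] Y.pR :=
    { toFun := fun v => ⟨v.1, v.2⟩
      map_add' := fun _ _ => rfl
      map_smul' := fun _ _ => rfl }
  have hle : ((Ideal.span {f ⟨s, hs⟩}) • (⊤ : Submodule (C.Cp K) Y.p)).restrictScalars K ≤
      ((spanP Y s).comap Y.pR.subtype).comap g := by
    intro v hv
    rw [Submodule.restrictScalars_mem, Submodule.ideal_span_singleton_smul] at hv
    obtain ⟨w, -, rfl⟩ := hv
    have h := congrArg Subtype.val (functional_smul_comm f ⟨s, hs⟩ w)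
    show ((f ⟨s, hs⟩ • w : Y.p) : Y.M) ∈ Submodule.span (C.Cp K) {s}
    rw [h]
    exact Submodule.mem_span_singleton.mpr ⟨f w, rfl⟩
  refine Module.Finite.of_surjective (Submodule.mapQ _ _ g hle) fun x => ?_
  obtain ⟨v, rfl⟩ := Submodule.mkQ_surjective _ x
  exact ⟨Submodule.Quotient.mk ⟨v.1, v.2⟩, rfl⟩

/-- A section that does not generate the lattice vanishes at a point of the chart. -/
theorem exists_zero_of_ne {s : Y.M} (hs : s ∈ Y.p)
    (hne : Submodule.span (C.Cp K) {s} ≠ Y.p) :
    ∃ q : C.Ap →ₐ[k] K, s ∈ (Div.ptDiv q).p • Y.p := by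
  have := Y.inv_p
  let J : Ideal (C.Cp K) := LinearMap.range (Module.Dual.eval (C.Cp K) Y.p ⟨s, hs⟩)
  have hJ : J ≠ ⊤ := fun h => hne (le_antisymm ((Submodule.span_singleton_le_iff_mem _ _).mpr hs)
    fun v hv => by
      obtain ⟨f, hf⟩ := h.ge (Submodule.mem_top (x := (1 : C.Cp K)))
      have hf' : f ⟨s, hs⟩ = 1 := hf
      have hv' := congrArg Subtype.val (functional_smul_comm f ⟨s, hs⟩ ⟨v, hv⟩)
      rw [hf', one_smul] at hv'
      exact Submodule.mem_span_singleton.mpr ⟨f ⟨v, hv⟩, hv'.symm⟩)
  obtain ⟨𝔪, h𝔪, hle⟩ := J.exists_le_maximal hJ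
  have := hC.finiteType_Cp (K := K)
  obtain ⟨φ, hφ⟩ := Curve.exists_point_of_isMaximal (K := K) 𝔪
  let e : (K ⊗[k] C.Ap) ≃ₐ[K] C.Cp K := AlgEquiv.ofInjective (C.jp K) (C.jp_injective K)
  let q : C.Ap →ₐ[k] K :=
    ((φ.comp e.toAlgHom).restrictScalars k).comp Algebra.TensorProduct.includeRight
  have hq : ∀ t, Model.evalP q t = φ (e t) := by
    intro t
    induction t using TensorProduct.induction_on with
    | zero => simp
    | tmul r a =>
      rw [Model.evalP_tmul, show r ⊗ₜ[k] a = r • ((1 : K) ⊗ₜ a) by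
        rw [TensorProduct.smul_tmul', smul_eq_mul, mul_one], map_smul, map_smul]
      rfl
    | add x y hx hy => simp only [map_add, hx, hy]
  have hmem : ∀ c ∈ 𝔪, (c : C.A K) ∈ (Div.ptDiv q).p := by
    intro c hc
    obtain ⟨t, rfl⟩ := e.surjective c
    refine Submodule.subset_span ⟨t, ?_, rfl⟩
    rw [SetLike.mem_coe, Model.ptIdeal_eq_ker, RingHom.mem_ker, hq]
    exact RingHom.mem_ker.mp (hφ.symm ▸ hc)
  refine ⟨q, ?_⟩
  have h := mem_smul_top_of_forall_dual (I := 𝔪) (v := (⟨s, hs⟩ : Y.p)) fun f => hle ⟨f, rfl⟩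
  have key : ∀ w ∈ 𝔪 • (⊤ : Submodule (C.Cp K) Y.p), (w : Y.M) ∈ (Div.ptDiv q).p • Y.p := by
    intro w hw
    induction hw using Submodule.smul_induction_on' with
    | smul c hc u _ => exact Submodule.smul_mem_smul (M := Y.M) (hmem c hc) u.2
    | add a _ b _ ha hb => exact add_mem ha hb
  exact key _ h

end Triple

end Fermat.Agent.RelPic

end
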