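import Fermat.Agent.RelPic.Cut.Glue
import Fermat.Agent.RelPic.Cut.Rigidify

/-!
# Moving a family of degree zero bundles by a family of points of the curve
-/

set_option autoImplicit false
set_option linter.style.haveILetI false
set_option linter.unusedSectionVars false

noncomputable section

universe u

open CategoryTheory CategoryTheory.Limits AlgebraicGeometry AlgebraicGeometry.RelPicard
  NeronModelInfra GoodReductionJacobian

namespace Fermat.Agent.RelPic

variable {k : Type u} [Field k] {C : Scheme.{u}} {c : C ⟶ Spec (CommRingCat.of k)}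
  {ε : SchemeHomOver (𝟙 (Spec (CommRingCat.of k))) c}

theorem postComp_postComp {X X' Y Y' : Scheme.{u}} {x : X ⟶ Spec (CommRingCat.of k)}
    {x' : X' ⟶ Spec (CommRingCat.of k)} {y : Y ⟶ Spec (CommRingCat.of k)}
    {y' : Y' ⟶ Spec (CommRingCat.of k)} (φ : SchemeHomOver x x') (ψ : SchemeHomOver y x)
    (χ : SchemeHomOver y' y) :
    postComp (postComp φ ψ) χ = postComp φ (postComp ψ χ) :=
  Subtype.ext (Category.assoc _ _ _).symm

/-- Twisting triples by a point of the curve, for points inside one chart. -/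
structure ShiftData (G : GeomModel c ε) where
  /-- `X'` is the twist of `X` by the point. -/
  IsShift : ∀ {R : Type u} [CommRing R] [Algebra k R],
    SchemeHomOver (str k R) c → Triple G.model R → Triple G.model R → Prop
  exists_shift : ∀ {R : Type u} [CommRing R] [Algebra k R] (q : SchemeHomOver (str k R) c),
    (Set.range q.1 ⊆ Set.range G.ιp ∨ Set.range q.1 ⊆ Set.range G.ιm) →
      ∀ X : Triple G.model R, ∃ X', IsShift q X X'
  bc : ∀ {R R' : Type u} [CommRing R] [Algebra k R] [CommRing R'] [Algebra k R']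
    (φ : R →ₐ[k] R') (q : SchemeHomOver (str k R) c) (X X' : Triple G.model R)
    (Y Y' : Triple G.model R'), IsShift q X X' → Nonempty (Triple.BC φ X Y) →
      (IsShift (postComp q (specOver φ)) Y Y' ↔ Nonempty (Triple.BC φ X' Y'))
  deg_eq : ∀ {K : Type u} [Field K] [Algebra k K] (q : SchemeHomOver (str k K) c)
    (X X' : Triple G.model K), IsShift q X X' → X'.deg = X.deg

variable {G : GeomModel c ε} {P : SubPicCondition c ε} {D : RelativePic0Designation k c}
  {h : RepresentsRelSubPic c ε P D} (hD : DictProps G) (hP : IsDegreeCut G P) (S : ShiftData G)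

/-- A field point of the base of an open immersion with the point in its image factors. -/
theorem exists_algHom_of_mem_range {T : Scheme.{u}} {t : T ⟶ Spec (CommRingCat.of k)}
    {R : Type u} [CommRing R] [Algebra k R] {R' : Type u} [CommRing R'] [Algebra k R']
    (f : SchemeHomOver (str k R) t) [IsOpenImmersion f.1] (ψ : SchemeHomOver (str k R') t)
    (hr : Set.range ψ.1 ⊆ Set.range f.1) : ∃ φ : R →ₐ[k] R', postComp f (specOver φ) = ψ := by
  obtain ⟨φ, hφ⟩ := specOver_surjective (k := k) (R := R) (R' := R')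
    ⟨IsOpenImmersion.lift f.1 ψ.1 hr,
      ((congrArg (fun v => IsOpenImmersion.lift f.1 ψ.1 hr ≫ v) f.2.symm).trans
        (Category.assoc _ _ _).symm).trans
        ((congrArg (fun v => v ≫ t) (IsOpenImmersion.lift_fac f.1 ψ.1 hr)).trans ψ.2)⟩
  refine ⟨φ, Subtype.ext ?_⟩
  show (specOver φ).1 ≫ f.1 = ψ.1
  rw [hφ]
  exact IsOpenImmersion.lift_fac _ _ _

include hD hP

/-- Locally on the base the twist is rigid. -/
theorem exists_piece {T : Scheme.{u}} {t : T ⟶ Spec (CommRingCat.of k)}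
    (g : SchemeHomOver t D.toBase) (q : SchemeHomOver t c) (x : T) :
    ∃ (R : Type u) (_ : CommRing R) (_ : Algebra k R) (f : SchemeHomOver (str k R) t)
      (_ : IsOpenImmersion f.1) (Y X : Triple G.model R), x ∈ Set.range f.1 ∧
        PtTriple h G (postComp g f) Y ∧ S.IsShift (postComp q f) Y X ∧ X.IsRigid G.e ∧
        X.IsDegZero := by
  have hx : q.1 x ∈ G.ιp.opensRange ⊔ G.ιm.opensRange := by rw [G.cover]; trivial
  obtain ⟨U, hU, hxU⟩ : ∃ U : C.Opens, (U = G.ιp.opensRange ∨ U = G.ιm.opensRange) ∧ q.1 x ∈ U := by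
    rcases hx with hx | hx
    · exact ⟨_, Or.inl rfl, hx⟩
    · exact ⟨_, Or.inr rfl, hx⟩
  obtain ⟨V, hV, hxV, hVU⟩ :=
    exists_isAffineOpen_mem_and_subset (X := T) (x := x) (U := q.1 ⁻¹ᵁ U) hxU
  letI := algOf (R := Γ(T, V)) (hV.fromSpec ≫ t)
  let ψ : SchemeHomOver (str k Γ(T, V)) t := ⟨hV.fromSpec, (str_algOf (R := Γ(T, V)) _).symm⟩
  haveI : IsOpenImmersion ψ.1 := inferInstanceAs (IsOpenImmersion hV.fromSpec)
  obtain ⟨y, hy⟩ : x ∈ Set.range ψ.1 := by
    show x ∈ Set.range hV.fromSpec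
    rw [hV.range_fromSpec]
    exact hxV
  have hq : Set.range (postComp q ψ).1 ⊆ Set.range G.ιp ∨
      Set.range (postComp q ψ).1 ⊆ Set.range G.ιm := by
    have key : ∀ z, (postComp q ψ).1 z ∈ U := fun z => by
      have hz : hV.fromSpec z ∈ (V : Set T) := hV.range_fromSpec ▸ ⟨z, rfl⟩
      exact hVU hz
    rcases hU with rfl | rfl
    · exact Or.inl (Set.range_subset_iff.mpr key)
    · exact Or.inr (Set.range_subset_iff.mpr key)
  obtain ⟨Y₀, hY₀, -⟩ := exists_ptTriple (h := h) hD (postComp g ψ)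
  obtain ⟨X₀, hX₀⟩ := S.exists_shift (postComp q ψ) hq Y₀
  let p : PrimeSpectrum Γ(T, V) := y
  obtain ⟨a, ha, X, ⟨F⟩, hrig⟩ := X₀.exists_rigid_away G.e p.asIdeal
  set φ := IsScalarTower.toAlgHom k Γ(T, V) (Localization.Away a) with hφ
  haveI : IsOpenImmersion (specOver φ).1 :=
    IsOpenImmersion.of_isLocalization (S := Localization.Away a) a
  obtain ⟨Y, hY, -⟩ := exists_ptTriple (h := h) hD (postComp (postComp g ψ) (specOver φ))
  have hBC : Nonempty (Triple.BC φ Y₀ Y) := (hY₀.bc_iff hD φ Y).mp hY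
  haveI : IsOpenImmersion (postComp ψ (specOver φ)).1 :=
    inferInstanceAs (IsOpenImmersion ((specOver φ).1 ≫ ψ.1))
  refine ⟨Localization.Away a, inferInstance, inferInstance, postComp ψ (specOver φ), inferInstance,
    Y, X, ?_, ?_, ?_, hrig, F.isDegZero ?_⟩
  · obtain ⟨z, hz⟩ : p ∈ Set.range (PrimeSpectrum.comap (algebraMap Γ(T, V) (Localization.Away a))) := by
      rw [PrimeSpectrum.localization_away_comap_range (Localization.Away a) a]
      exact ha
    exact ⟨z, (congrArg ψ.1 hz).trans hy⟩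
  · rwa [← postComp_postComp]
  · rw [← postComp_postComp]
    exact (S.bc φ _ Y₀ X₀ Y X hX₀ hBC).mpr ⟨F⟩
  · intro K _ _ χ X' hX'
    obtain ⟨Y', hY'⟩ : ∃ Y' : Triple G.model K,
        PtTriple h G (postComp (postComp g ψ) (specOver χ)) Y' :=
      (exists_ptTriple (h := h) hD _).imp fun _ h' => h'.1
    rw [S.deg_eq _ Y' X' ((S.bc χ _ Y₀ X₀ Y' X' hX₀ ((hY₀.bc_iff hD χ Y').mp hY')).mpr hX')]
    exact (hY'.isDegZero hD hP) K (AlgHom.id k K) Y' ⟨Triple.BC.refl Y'⟩

/-- **The twist of a family by a family of points**. -/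
theorem exists_shift_morphism {T : Scheme.{u}} (t : T ⟶ Spec (CommRingCat.of k))
    (g : SchemeHomOver t D.toBase) (q : SchemeHomOver t c) :
    ∃ g' : SchemeHomOver t D.toBase, ∀ (K : Type u) [Field K] [Algebra k K]
      (ψ : SchemeHomOver (str k K) t) (X X' : Triple G.model K),
      PtTriple h G (postComp g ψ) X → PtTriple h G (postComp g' ψ) X' →
        S.IsShift (postComp q ψ) X X' := by
  choose R iR iA f hf Y X hx hY hX hr hdeg using fun x : T =>
    exists_piece (h := h) hD hP S g q x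
  letI := iR
  letI := iA
  haveI := hf
  obtain ⟨g', hg'⟩ := exists_morphism_of_triples (h := h) hD hP t R f (fun x => ⟨x, hx x⟩) X hr hdeg
    (by
      intro i j R' _ _ φ φ' e X' hX'
      have e' : postComp (f i) (specOver φ) = postComp (f j) (specOver φ') := Subtype.ext e
      obtain ⟨Y', hY', -⟩ := exists_ptTriple (h := h) hD (postComp (postComp g (f i)) (specOver φ))
      have hs := (S.bc φ _ _ _ Y' X' (hX i) (((hY i).bc_iff hD φ Y').mp hY')).mpr hX'
      rw [postComp_postComp, e', ← postComp_postComp] at hY' hs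
      exact (S.bc φ' _ _ _ Y' X' (hX j) (((hY j).bc_iff hD φ' Y').mp hY')).mp hs)
  refine ⟨g', fun K _ _ ψ X₁ X₁' h₁ h₁' => ?_⟩
  obtain ⟨φ, hφ⟩ := exists_algHom_of_mem_range (f (ψ.1 (IsLocalRing.closedPoint K))) ψ (by
    rintro _ ⟨z, rfl⟩
    rw [Subsingleton.elim z (IsLocalRing.closedPoint K)]
    exact hx _)
  rw [← hφ, ← postComp_postComp] at h₁ h₁' ⊢
  exact (S.bc φ _ _ _ X₁ X₁' (hX _) (((hY _).bc_iff hD φ X₁).mp h₁)).mpr
    (((hg' _).bc_iff hD φ X₁').mp h₁')

end Fermat.Agent.RelPic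

end
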