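import Fermat.Agent.RelPic.Point.OfPoint

/-!
# The twisting divisor of a point, in either chart

For a point of the overlap the divisors from the two charts agree.
-/

set_option autoImplicit false
set_option synthInstance.maxHeartbeats 400000

noncomputable section

universe u

open scoped TensorProduct Pointwise

namespace Fermat.Agent.RelPic

variable {k : Type u} [Field k] {C : Model k} {R : Type u} [CommRing R] [Algebra k R]

theorem Model.Regular.swap (h : C.Regular) : C.swap.Regular :=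
  ⟨h.dedekind_m, h.dedekind_p, h.diag_m, h.diag_p, h.finiteType_m, h.finiteType_p⟩

namespace Div

open Model

/-- A point of the overlap as an evaluation over the base. -/
def evalPt (a : C.A₀ →ₐ[k] R) : C.A R →ₐ[R] R :=
  Algebra.TensorProduct.lift (AlgHom.id R R) a fun _ _ => Commute.all _ _

theorem evalPt_jp (a : C.A₀ →ₐ[k] R) (t : R ⊗[k] C.Ap) :
    evalPt a (C.jp R t) = Model.evalP (a.comp (Subalgebra.inclusion C.Ap_le)) t := by
  induction t using TensorProduct.induction_on with
  | zero => simp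
  | tmul r b => rw [Model.jp_tmul, evalPt, evalP, Algebra.TensorProduct.lift_tmul,
      Algebra.TensorProduct.lift_tmul]; rfl
  | add x y hx hy => simp [hx, hy]

variable (a : C.A₀ →ₐ[k] R)

theorem ptDiv_overlap :
    (∀ v, v ∈ (ptDiv (a.comp (Subalgebra.inclusion C.Ap_le))).J ↔ evalPt a v = 0) ∧
    (∀ v, v ∈ (ptDiv (a.comp (Subalgebra.inclusion C.Ap_le))).p ↔ v ∈ C.Cp R ∧ evalPt a v = 0) ∧
    (∀ v, v ∈ (ptDiv (a.comp (Subalgebra.inclusion C.Ap_le))).m ↔ v ∈ C.Cm R ∧ evalPt a v = 0) := by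
  set q := a.comp (Subalgebra.inclusion C.Ap_le) with hq
  have himg : ∀ t, C.jp R t ∈ (C.jp R).toRingHom '' (ptIdeal q : Set (R ⊗[k] C.Ap)) ↔
      evalPt a (C.jp R t) = 0 := fun t => by
    rw [evalPt_jp, ← hq, ptIdeal_eq_ker]
    constructor
    · rintro ⟨t', ht', e⟩
      rw [← C.jp_injective R e]
      exact ht'
    · exact fun h => ⟨t, h, rfl⟩
  have hp : ∀ v, v ∈ (ptDiv q).p ↔ v ∈ C.Cp R ∧ evalPt a v = 0 := by
    refine fun v => ⟨fun hv => ?_, fun ⟨⟨t, ht⟩, h0⟩ => ?_⟩
    · induction hv using Submodule.span_induction with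
      | mem v hv =>
        obtain ⟨t, ht, rfl⟩ := hv
        exact ⟨C.jp_mem R t, (himg t).mp ⟨t, ht, rfl⟩⟩
      | zero => exact ⟨zero_mem _, map_zero _⟩
      | add v w _ _ hv hw => exact ⟨add_mem hv.1 hw.1, by rw [map_add, hv.2, hw.2, add_zero]⟩
      | smul b v _ hv =>
        refine ⟨(C.Cp R).mul_mem b.2 hv.1, ?_⟩
        show evalPt a ((b : C.A R) * v) = 0
        rw [map_mul, hv.2, mul_zero]
    · have h' : evalPt a (C.jp R t) = 0 := (congrArg (evalPt a) ht).trans h0
      exact Submodule.subset_span (ht ▸ (himg t).mpr h')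
  have hJ : ∀ v, v ∈ (ptDiv q).J ↔ evalPt a v = 0 := by
    refine fun v => ⟨fun hv => ?_, fun hv => ?_⟩
    · induction hv using Submodule.span_induction with
      | mem v hv =>
        obtain ⟨t, ht, rfl⟩ := hv
        exact (himg t).mp ⟨t, ht, rfl⟩
      | zero => exact map_zero _
      | add v w _ _ hv hw => rw [map_add, hv, hw, add_zero]
      | smul b v _ hv => rw [smul_eq_mul, map_mul, hv, mul_zero]
    · obtain ⟨n, t, ht⟩ := C.exists_pow_mul_mem_Cp R v
      have ht' : C.jp R t = C.X₀ R ^ n * v := ht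
      have h1 : C.jp R t ∈ (ptDiv q).J := Submodule.subset_span ((himg t).mpr (by
        rw [ht', map_mul, hv, mul_zero]))
      rw [← one_mul v, ← C.Y₀_pow_mul_X₀_pow R n, mul_assoc, ← ht']
      exact Submodule.smul_mem _ (C.Y₀ R ^ n) h1
  refine ⟨hJ, hp, fun v => ?_⟩
  exact (DivData.mem_ofIdeal_m _).trans ⟨fun h => ⟨h.2, (hJ v).mp h.1⟩, fun h => ⟨(hJ v).mpr h.2, h.1⟩⟩

/-- The divisor of a point of the second chart. -/
def ptDivM (q : C.Am →ₐ[k] R) : Div C R := (ptDiv (C := C.swap) q).flip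

/-- The inverse divisor of a point of the second chart. -/
def ptInvM (q : C.Am →ₐ[k] R) : Div C R := (ptInv (C := C.swap) q).flip

theorem isGood_flip {D : Div C.swap R} (h : D.IsGood) : IsGood (D.flip : Div C R) := by
  have h' : DivData.Good (C.swap.Y₀ R) (C.swap.X₀ R) D.flip := DivData.Good.flip h
  rw [C.swap_Y₀] at h'
  exact h'

theorem isGood_ptInvM (hC : C.Regular) (q : C.Am →ₐ[k] R) : (ptInvM q).IsGood :=
  isGood_flip (isGood_ptInv hC.swap q)

theorem isGood_ptDivM (hC : C.Regular) (q : C.Am →ₐ[k] R) : (ptDivM q).IsGood :=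
  isGood_flip (isGood_ptDiv hC.swap q)

/-- On the overlap the two divisors of a point are equal. -/
theorem ptDiv_eq_ptDivM : ptDiv (a.comp (Subalgebra.inclusion C.Ap_le)) =
    ptDivM (a.comp (Subalgebra.inclusion C.Am_le)) := by
  obtain ⟨hJ, hp, hm⟩ := ptDiv_overlap a
  obtain ⟨hJ', hp', hm'⟩ := ptDiv_overlap (C := C.swap) a
  exact DivData.ext' (Submodule.ext fun v => (hJ v).trans (hJ' v).symm)
    (Submodule.ext fun v => (hp v).trans (hm' v).symm)
    (Submodule.ext fun v => (hm v).trans (hp' v).symm)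

variable (C R) in
/-- The marked point in the first chart. -/
def basePt (e : C.Pt) : C.Ap →ₐ[k] R :=
  (Algebra.ofId k R).comp (e.comp (Subalgebra.inclusion C.Ap_le))

variable (e : C.Pt)

/-- The twisting divisor of a point of the first chart: add the point, remove the marked point. -/
def shiftP (q : C.Ap →ₐ[k] R) : Div C R := ptInv q * ptDiv (basePt C R e)

/-- The twisting divisor of a point of the second chart. -/
def shiftM (q : C.Am →ₐ[k] R) : Div C R := ptInvM q * ptDiv (basePt C R e)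

theorem isGood_shiftP (hC : C.Regular) (q : C.Ap →ₐ[k] R) : (shiftP e q).IsGood :=
  (isGood_ptInv hC q).mul (isGood_ptDiv hC _)

theorem isGood_shiftM (hC : C.Regular) (q : C.Am →ₐ[k] R) : (shiftM e q).IsGood :=
  (isGood_ptInvM hC q).mul (isGood_ptDiv hC _)

/-- On the overlap the two twists agree. -/
theorem nonempty_equiv_shift (hC : C.Regular) (T : Triple C R) :
    Nonempty (Triple.Equiv
      (act _ (isGood_shiftP e hC (a.comp (Subalgebra.inclusion C.Ap_le))) T)
      (act _ (isGood_shiftM e hC (a.comp (Subalgebra.inclusion C.Am_le))) T)) := by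
  set qp := a.comp (Subalgebra.inclusion C.Ap_le)
  set qm := a.comp (Subalgebra.inclusion C.Am_le)
  have e₁ := ptDiv_mul_ptInv hC qp
  have e₂ : ptDiv qp * ptInvM qm =
      DivData.princ (C.swap.X₀ R - algebraMap R (C.A R) (Model.ptX (C := C.swap) qm)) := by
    rw [ptDiv_eq_ptDivM a]
    exact congrArg DivData.flip (ptDiv_mul_ptInv hC.swap qm)
  obtain ⟨E⟩ := nonempty_equiv_of_mul_eq_princ (isGood_ptDiv hC qp) (isGood_ptInv hC qp)
    (isGood_ptInvM hC qm) (C.isRegular_X₀_sub R _) (C.swap.isRegular_X₀_sub R _) e₁ e₂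
    (act _ (isGood_ptDiv hC (basePt C R e)) T)
  exact ⟨((actMul (isGood_ptInv hC qp) (isGood_ptDiv hC _) (isGood_shiftP e hC qp) T).symm.trans
    E).trans (actMul (isGood_ptInvM hC qm) (isGood_ptDiv hC _) (isGood_shiftM e hC qm) T)⟩

variable {R' : Type u} [CommRing R'] [Algebra k R'] (φ : R →ₐ[k] R')

omit [Algebra k R'] in
theorem comp_basePt [Algebra k R'] (φ : R →ₐ[k] R') : φ.comp (basePt C R e) = basePt C R' e :=
  AlgHom.ext fun _b => φ.commutes _

theorem maps_shiftP (q : C.Ap →ₐ[k] R) :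
    DivData.Maps (C.mapA φ).toRingHom (shiftP e q) (shiftP e (φ.comp q)) := by
  rw [shiftP, shiftP, ← comp_basePt e φ]
  exact DivData.Maps.mul (maps_ptInv φ q) (maps_ptDiv φ _)

theorem maps_shiftM (q : C.Am →ₐ[k] R) :
    DivData.Maps (C.mapA φ).toRingHom (shiftM e q) (shiftM e (φ.comp q)) := by
  rw [shiftM, shiftM, ← comp_basePt e φ]
  exact DivData.Maps.mul (DivData.Maps.flip (maps_ptInv (C := C.swap) φ q)) (maps_ptDiv φ _)

end Div

end Fermat.Agent.RelPic
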