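import Fermat.Agent.RelPic.Cut.Shift
import Fermat.Agent.RelPic.Cut.ShiftDiv

/-!
# Twisting a triple by a point of the curve

For an affine point of the curve inside one chart the twist is the action of the shift divisor of
the chart; the two charts agree on the overlap.
-/

set_option autoImplicit false
set_option synthInstance.maxHeartbeats 400000
set_option linter.style.haveILetI false
set_option linter.unusedSectionVars false

noncomputable section

universe u

open CategoryTheory CategoryTheory.Limits AlgebraicGeometry AlgebraicGeometry.RelPicard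
  NeronModelInfra GoodReductionJacobian

namespace Fermat.Agent.RelPic

variable {k : Type u} [Field k] {C : Scheme.{u}} {c : C ⟶ Spec (CommRingCat.of k)}
  {ε : SchemeHomOver (𝟙 (Spec (CommRingCat.of k))) c} (G : GeomModel c ε) (hC : G.model.Regular)
  {R : Type u} [CommRing R] [Algebra k R]

/-- `X'` is the twist of `X` by the point `q` of the curve. -/
def IsPtShift (q : SchemeHomOver (str k R) c) (X X' : Triple G.model R) : Prop :=
  (∃ a : G.model.Ap →ₐ[k] R, specHom a ≫ G.ιp = q.1 ∧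
    Nonempty ((Div.act _ (Div.isGood_shiftP G.e hC a) X).Equiv X')) ∨
  ∃ a : G.model.Am →ₐ[k] R, specHom a ≫ G.ιm = q.1 ∧
    Nonempty ((Div.act _ (Div.isGood_shiftM G.e hC a) X).Equiv X')

theorem specHom_comp {A B B' : Type u} [CommRing A] [Algebra k A] [CommRing B] [Algebra k B]
    [CommRing B'] [Algebra k B'] (φ : B →ₐ[k] B') (ψ : A →ₐ[k] B) :
    specHom (φ.comp ψ) = specHom φ ≫ specHom ψ :=
  Spec.map_comp (CommRingCat.ofHom ψ.toRingHom) (CommRingCat.ofHom φ.toRingHom)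

variable {G hC}

/-- The chart coordinate of a point is unique. -/
theorem eq_of_specHom_comp_eq {A : Type u} [CommRing A] [Algebra k A]
    {ι : Spec (CommRingCat.of A) ⟶ C} [IsOpenImmersion ι] {a a' : A →ₐ[k] R}
    (h : specHom a ≫ ι = specHom a' ≫ ι) : a = a' :=
  specOver_injective (Subtype.ext ((cancel_mono ι).mp h))

/-- Two twists by one point are isomorphic. -/
theorem IsPtShift.equiv {q : SchemeHomOver (str k R) c} {X Z Z' : Triple G.model R}
    (h : IsPtShift G hC q X Z) (h' : IsPtShift G hC q X Z') : Nonempty (Z.Equiv Z') := by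
  have mix : ∀ (a : G.model.Ap →ₐ[k] R) (a' : G.model.Am →ₐ[k] R), specHom a ≫ G.ιp = q.1 →
      specHom a' ≫ G.ιm = q.1 → Nonempty ((Div.act _ (Div.isGood_shiftP G.e hC a) X).Equiv
        (Div.act _ (Div.isGood_shiftM G.e hC a') X)) := fun a a' ha ha' => by
    have hr : Set.range q.1 ⊆ Set.range G.ι₀ := by
      rintro _ ⟨z, rfl⟩
      have h1 : q.1 z ∈ G.ιp.opensRange ⊓ G.ιm.opensRange := by
        refine ⟨?_, ?_⟩
        · rw [← ha]; exact ⟨specHom a z, rfl⟩
        · rw [← ha']; exact ⟨specHom a' z, rfl⟩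
      rw [G.inter] at h1
      exact h1
    obtain ⟨φ, hφ⟩ := exists_algHom_of_mem_range (t := c) ⟨G.ι₀, G.ι₀_c⟩ q hr
    have hφ' : specHom φ ≫ G.ι₀ = q.1 := congrArg Subtype.val hφ
    obtain rfl : a = φ.comp (Subalgebra.inclusion G.model.Ap_le) := eq_of_specHom_comp_eq
      (ι := G.ιp) (by rw [ha, specHom_comp, Category.assoc, G.incl_p, hφ'])
    obtain rfl : a' = φ.comp (Subalgebra.inclusion G.model.Am_le) := eq_of_specHom_comp_eq
      (ι := G.ιm) (by rw [ha', specHom_comp, Category.assoc, G.incl_m, hφ'])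
    exact Div.nonempty_equiv_shift φ G.e hC X
  rcases h with ⟨a, ha, ⟨E⟩⟩ | ⟨a, ha, ⟨E⟩⟩ <;> rcases h' with ⟨a', ha', ⟨E'⟩⟩ | ⟨a', ha', ⟨E'⟩⟩
  · obtain rfl := eq_of_specHom_comp_eq (ha.trans ha'.symm)
    exact ⟨E.symm.trans E'⟩
  · obtain ⟨M⟩ := mix a a' ha ha'
    exact ⟨(E.symm.trans M).trans E'⟩
  · obtain ⟨M⟩ := mix a' a ha' ha
    exact ⟨(E.symm.trans M.symm).trans E'⟩
  · obtain rfl := eq_of_specHom_comp_eq (ha.trans ha'.symm)
    exact ⟨E.symm.trans E'⟩

/-- Twists by points inside one chart exist. -/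
theorem exists_isPtShift (q : SchemeHomOver (str k R) c)
    (h : Set.range q.1 ⊆ Set.range G.ιp ∨ Set.range q.1 ⊆ Set.range G.ιm)
    (X : Triple G.model R) : ∃ X', IsPtShift G hC q X X' := by
  rcases h with h | h
  · obtain ⟨a, ha⟩ := exists_algHom_of_mem_range (t := c) ⟨G.ιp, G.ιp_c⟩ q h
    exact ⟨_, Or.inl ⟨a, congrArg Subtype.val ha, ⟨Triple.Equiv.refl _⟩⟩⟩
  · obtain ⟨a, ha⟩ := exists_algHom_of_mem_range (t := c) ⟨G.ιm, G.ιm_c⟩ q h
    exact ⟨_, Or.inr ⟨a, congrArg Subtype.val ha, ⟨Triple.Equiv.refl _⟩⟩⟩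

variable {R' : Type u} [CommRing R'] [Algebra k R']

/-- Twists commute with base change. -/
theorem IsPtShift.bc_iff (φ : R →ₐ[k] R') {q : SchemeHomOver (str k R) c}
    {X X' : Triple G.model R} {Y Y' : Triple G.model R'} (h : IsPtShift G hC q X X')
    (F : Triple.BC φ X Y) :
    IsPtShift G hC (postComp q (specOver φ)) Y Y' ↔ Nonempty (Triple.BC φ X' Y') := by
  have key : ∃ Z, IsPtShift G hC (postComp q (specOver φ)) Y Z ∧
      Nonempty (Triple.BC φ X' Z) := by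
    rcases h with ⟨a, ha, ⟨E⟩⟩ | ⟨a, ha, ⟨E⟩⟩
    · refine ⟨_, Or.inl ⟨φ.comp a, ?_, ⟨Triple.Equiv.refl _⟩⟩,
        ⟨(Div.bcAct (Div.isGood_shiftP G.e hC a) (Div.isGood_shiftP G.e hC _)
          (Div.maps_shiftP G.e φ a) F).congr_left E.symm⟩⟩
      rw [specHom_comp, Category.assoc, ha]; rfl
    · refine ⟨_, Or.inr ⟨φ.comp a, ?_, ⟨Triple.Equiv.refl _⟩⟩,
        ⟨(Div.bcAct (Div.isGood_shiftM G.e hC a) (Div.isGood_shiftM G.e hC _)
          (Div.maps_shiftM G.e φ a) F).congr_left E.symm⟩⟩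
      rw [specHom_comp, Category.assoc, ha]; rfl
  obtain ⟨Z, hZ, ⟨FZ⟩⟩ := key
  refine ⟨fun hY => ?_, fun ⟨F'⟩ => ?_⟩
  · obtain ⟨e⟩ := hZ.equiv hY
    exact ⟨FZ.congr_right e⟩
  · obtain ⟨e⟩ := Triple.BC.nonempty_equiv FZ F'
    rcases hZ with ⟨a, ha, ⟨E⟩⟩ | ⟨a, ha, ⟨E⟩⟩
    · exact Or.inl ⟨a, ha, ⟨E.trans e⟩⟩
    · exact Or.inr ⟨a, ha, ⟨E.trans e⟩⟩

end Fermat.Agent.RelPic

end
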